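/-
Programme DS (S48), brick GEO-TOP-C (helper20): **the mod-`M` cyclotomic character of `G_ℚ`**
`cycloM M : (ℚbar ≃ₐ[ℚ] ℚbar) →* (ZMod M)ˣ` (`M ≠ 0` arbitrary, not necessarily a prime power) and
its properties (twin of `ES/J/CycloChar8` for `ℤ_p`):

* `cycloM_spec`               : `σ ζ = ζ ^ (cycloM M σ).val` for every `ζ` with `ζ ^ M = 1`;
* `cycloM_complexConjugation` : value `-1` at complex conjugation;
* `cycloM_of_isFrobeniusAt`   : value `ℓ` at a Frobenius lift at `A | ℓ`, `ℓ ∤ M`;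
* `cycloM_of_mem_inertia`     : trivial on the inertia group at `A | q`, `q ∤ M`;
* `cycloM_factorsThroughFiniteLevel` : trivial on `G_{ℚ(μ_M)}`;
* `cycloM_dvd` : compatibility with `ZMod.unitsMap` for `M' ∣ M`.
-/
import Mathlib
import Fermat.Prelude.Def_GaloisRep_Residual
import Fermat.Agent.ES.J.CycloChar8

set_option autoImplicit false

noncomputable section

open Fermat.Agent.ES.J.CycloChar8

namespace Fermat.Agent.DS.Geo.CycloModM

local notation "Qb" => AlgebraicClosure ℚ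

variable (M : ℕ) [NeZero M]

/-- a chosen primitive `M`-th root of unity in `ℚbar` -/
def zetaM : Qb := (HasEnoughRootsOfUnity.exists_primitiveRoot Qb M).choose

theorem zetaM_spec : IsPrimitiveRoot (zetaM M) M :=
  (HasEnoughRootsOfUnity.exists_primitiveRoot Qb M).choose_spec

/-- **The mod-`M` cyclotomic character** of `G_ℚ`. -/
def cycloM : (Qb ≃ₐ[ℚ] Qb) →* (ZMod M)ˣ :=
  (zetaM_spec M).autToPow ℚ

/-- the defining property on the chosen root -/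
theorem cycloM_zeta (σ : Qb ≃ₐ[ℚ] Qb) :
    σ (zetaM M) = zetaM M ^ ((cycloM M σ : (ZMod M)ˣ) : ZMod M).val :=
  ((zetaM_spec M).autToPow_spec ℚ σ).symm

/-- **The defining property** on all `M`-th roots of unity. -/
theorem cycloM_spec (σ : Qb ≃ₐ[ℚ] Qb) {ζ : Qb} (hζ : ζ ^ M = 1) :
    σ ζ = ζ ^ ((cycloM M σ : (ZMod M)ˣ) : ZMod M).val := by
  obtain ⟨i, -, rfl⟩ := (zetaM_spec M).eq_pow_of_pow_eq_one hζ
  rw [map_pow, cycloM_zeta, ← pow_mul, ← pow_mul, mul_comm]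

/-- the character is determined by the action on one primitive root -/
theorem cycloM_eq_of_apply {σ : Qb ≃ₐ[ℚ] Qb} {ζ : Qb} (hζ : IsPrimitiveRoot ζ M) {m : ℕ}
    (h : σ ζ = ζ ^ m) : ((cycloM M σ : (ZMod M)ˣ) : ZMod M) = (m : ZMod M) := by
  have h1 := cycloM_spec M σ hζ.pow_eq_one
  rw [h] at h1
  have h2 : m ≡ ((cycloM M σ : (ZMod M)ˣ) : ZMod M).val [MOD M] :=
    modEq_of_pow_eq_pow hζ (NeZero.ne M) h1
  have h3 := (ZMod.natCast_eq_natCast_iff _ _ _).mpr h2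
  rw [h3, ZMod.natCast_zmod_val]

/-! ### complex conjugation -/

/-- **value `-1` at complex conjugation** -/
theorem cycloM_complexConjugation : cycloM M complexConjugation = -1 := by
  apply Units.ext
  have hζ := zetaM_spec M
  have hM : M ≠ 0 := NeZero.ne M
  have h1 : complexConjugation (zetaM M) = zetaM M ^ (M - 1) := by
    rw [complexConjugation_rootOfUnity hM hζ.pow_eq_one]
    have hζ0 : zetaM M ≠ 0 := hζ.ne_zero hM
    rw [eq_comm, ← mul_right_inj' hζ0, mul_inv_cancel₀ hζ0, ← pow_succ',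
      Nat.sub_add_cancel (Nat.one_le_iff_ne_zero.mpr hM), hζ.pow_eq_one]
  rw [cycloM_eq_of_apply M hζ h1, Nat.cast_sub (Nat.one_le_iff_ne_zero.mpr hM), Nat.cast_one]
  simp

/-! ### Frobenius lifts -/

/-- **value `ℓ` at a Frobenius lift** at `A | ℓ`, `ℓ ∤ M`. -/
theorem cycloM_of_isFrobeniusAt {ℓ : ℕ} (hℓ : ℓ.Prime) (hℓM : ¬ ℓ ∣ M) (A : ValuationSubring Qb)
    (hA : A.LiesOverPrime ℓ) {σ : Qb ≃ₐ[ℚ] Qb} (hσ : A.IsFrobeniusAt σ ℓ) :
    ((cycloM M σ : (ZMod M)ˣ) : ZMod M) = (ℓ : ZMod M) := by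
  have hζ := zetaM_spec M
  set ζ := zetaM M with hζdef
  have hM : M ≠ 0 := NeZero.ne M
  have hζ0 : ζ ≠ 0 := hζ.ne_zero hM
  have hζA : ζ ∈ A := mem_of_pow_eq_one hM hζ.pow_eq_one
  have h1 := frob_apply_sub_pow_mem_nonunits hσ hζA
  have hσζ : (σ ζ) ^ M = 1 := by rw [← map_pow, hζ.pow_eq_one, map_one]
  have hη : (σ ζ * (ζ ^ ℓ)⁻¹) ^ M = 1 := by
    rw [mul_pow, hσζ, inv_pow, ← pow_mul, mul_comm ℓ, pow_mul, hζ.pow_eq_one, one_pow, inv_one,
      mul_one]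
  have hvinv : A.valuation ((ζ ^ ℓ)⁻¹) = 1 := by
    rw [map_inv₀, map_pow, valuation_eq_one_of_pow_eq_one hM hζ.pow_eq_one, one_pow, inv_one]
  have hη1 : σ ζ * (ζ ^ ℓ)⁻¹ - 1 ∈ A.nonunits := by
    have e : σ ζ * (ζ ^ ℓ)⁻¹ - 1 = (σ ζ - ζ ^ ℓ) * (ζ ^ ℓ)⁻¹ := by
      rw [sub_mul, mul_inv_cancel₀ (pow_ne_zero _ hζ0)]
    rw [e, ValuationSubring.mem_nonunits_iff, map_mul, hvinv, mul_one]
    exact (ValuationSubring.mem_nonunits_iff (A := A)).mp h1
  have h2 := eq_one_of_sub_one_mem_nonunits hℓ hA hℓM hη hη1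
  have h3 : σ ζ = ζ ^ ℓ := by
    have := congrArg (· * ζ ^ ℓ) h2
    simpa [mul_assoc, inv_mul_cancel₀ (pow_ne_zero ℓ hζ0)] using this
  exact cycloM_eq_of_apply M hζ h3

/-- unit form of `cycloM_of_isFrobeniusAt` -/
theorem cycloM_of_isFrobeniusAt' {ℓ : ℕ} (hℓ : ℓ.Prime) (hℓM : ¬ ℓ ∣ M) (A : ValuationSubring Qb)
    (hA : A.LiesOverPrime ℓ) {σ : Qb ≃ₐ[ℚ] Qb} (hσ : A.IsFrobeniusAt σ ℓ) :
    cycloM M σ = ZMod.unitOfCoprime ℓ
      ((Nat.Prime.coprime_iff_not_dvd hℓ).mpr hℓM) := by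
  apply Units.ext
  rw [cycloM_of_isFrobeniusAt M hℓ hℓM A hA hσ, ZMod.coe_unitOfCoprime]

/-! ### inertia -/

/-- **trivial on the inertia group** at `A | q`, `q ∤ M`. -/
theorem cycloM_of_mem_inertia {q : ℕ} (hq : q.Prime) (hqM : ¬ q ∣ M) (A : ValuationSubring Qb)
    (hA : A.LiesOverPrime q) {τ : Qb ≃ₐ[ℚ] Qb} (hτ : τ ∈ A.inertiaSubgroupIn ℚ) :
    cycloM M τ = 1 := by
  apply Units.ext
  rw [Units.val_one]
  have hζ := zetaM_spec M
  set ζ := zetaM M with hζdef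
  have hM : M ≠ 0 := NeZero.ne M
  have hζ0 : ζ ≠ 0 := hζ.ne_zero hM
  have hζA : ζ ∈ A := mem_of_pow_eq_one hM hζ.pow_eq_one
  have h1 := Fermat.Agent.S05.Inertia.apply_sub_mem_nonunits hτ hζA
  have hτζ : (τ ζ) ^ M = 1 := by rw [← map_pow, hζ.pow_eq_one, map_one]
  have hη : (τ ζ * ζ⁻¹) ^ M = 1 := by
    rw [mul_pow, hτζ, inv_pow, hζ.pow_eq_one, inv_one, mul_one]
  have hvinv : A.valuation (ζ⁻¹) = 1 := by
    rw [map_inv₀, valuation_eq_one_of_pow_eq_one hM hζ.pow_eq_one, inv_one]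
  have hη1 : τ ζ * ζ⁻¹ - 1 ∈ A.nonunits := by
    have e : τ ζ * ζ⁻¹ - 1 = (τ ζ - ζ) * ζ⁻¹ := by
      rw [sub_mul, mul_inv_cancel₀ hζ0]
    rw [e, ValuationSubring.mem_nonunits_iff, map_mul, hvinv, mul_one]
    exact (ValuationSubring.mem_nonunits_iff (A := A)).mp h1
  have h2 := eq_one_of_sub_one_mem_nonunits hq hA hqM hη hη1
  have h3 : τ ζ = ζ ^ 1 := by
    have := congrArg (· * ζ) h2
    simpa [mul_assoc, inv_mul_cancel₀ hζ0] using this
  rw [cycloM_eq_of_apply M hζ h3, Nat.cast_one]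

/-! ### finite level -/

/-- trivial on `G_{ℚ(μ_M)}` -/
theorem cycloM_eq_one_of_fixes {σ : Qb ≃ₐ[ℚ] Qb}
    (hσ : ∀ x ∈ IntermediateField.adjoin ℚ {zetaM M}, σ x = x) : cycloM M σ = 1 := by
  apply Units.ext
  rw [Units.val_one]
  have h3 : σ (zetaM M) = zetaM M ^ 1 := by
    rw [pow_one]
    exact hσ _ (IntermediateField.mem_adjoin_simple_self ℚ _)
  rw [cycloM_eq_of_apply M (zetaM_spec M) h3, Nat.cast_one]

/-- **finite level** -/
theorem cycloM_factorsThroughFiniteLevel : GaloisFactorsThroughFiniteLevel (cycloM M) :=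
  ⟨IntermediateField.adjoin ℚ {zetaM M},
    IntermediateField.adjoin.finiteDimensional
      (((zetaM_spec M).isIntegral (Nat.pos_of_ne_zero (NeZero.ne M))).tower_top),
    fun _ hσ => cycloM_eq_one_of_fixes M hσ⟩

/-- the kernel: `cycloM M σ = 1` iff `σ` fixes the `M`-th roots of unity -/
theorem cycloM_eq_one_iff {σ : Qb ≃ₐ[ℚ] Qb} :
    cycloM M σ = 1 ↔ ∀ ζ : Qb, ζ ^ M = 1 → σ ζ = ζ := by
  constructor
  · intro h ζ hζ
    have hsp := cycloM_spec M σ hζ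
    rw [h, Units.val_one] at hsp
    by_cases hM1 : M = 1
    · subst hM1
      rw [pow_one] at hζ
      rw [hζ, map_one]
    · have hfact : Fact (1 < M) := ⟨lt_of_le_of_ne (Nat.one_le_iff_ne_zero.mpr (NeZero.ne M))
        (Ne.symm hM1)⟩
      rw [ZMod.val_one, pow_one] at hsp
      exact hsp
  · intro h
    apply Units.ext
    rw [Units.val_one]
    have h3 : σ (zetaM M) = zetaM M ^ 1 := by
      rw [pow_one]
      exact h _ (zetaM_spec M).pow_eq_one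
    rw [cycloM_eq_of_apply M (zetaM_spec M) h3, Nat.cast_one]

/-! ### change of level -/

/-- compatibility with reduction `(ZMod M)ˣ → (ZMod M')ˣ` for `M' ∣ M` -/
theorem cycloM_dvd {M' : ℕ} [NeZero M'] (h : M' ∣ M) (σ : Qb ≃ₐ[ℚ] Qb) :
    ZMod.unitsMap h (cycloM M σ) = cycloM M' σ := by
  apply Units.ext
  have hζ' := zetaM_spec M'
  obtain ⟨d, hd⟩ := h
  have hpow : (zetaM M') ^ M = 1 := by rw [hd, pow_mul, hζ'.pow_eq_one, one_pow]
  have h1 := cycloM_spec M σ hpow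
  have h2 := cycloM_eq_of_apply M' hζ' h1
  rw [h2, ZMod.unitsMap_def, Units.coe_map, MonoidHom.coe_coe, ZMod.castHom_apply,
    ZMod.natCast_val]

end Fermat.Agent.DS.Geo.CycloModM
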