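/-
DS programme (S48), GEO half, brick TOP-B (helper93): eigenvectors in `k ⊗_ℤ Λ`.

If a commutative ring `R` acts FAITHFULLY on a finite free `ℤ`-module `Λ`, then for EVERY ring
homomorphism `χ : R →+* k` to a field (any characteristic) the `k`-vector space `k ⊗_ℤ Λ` contains
a nonzero `χ`-eigenvector.  (Going-up/Nakayama: `Λ` is a finite faithful `R`-module, so every
prime of `R` is in its support and `k ⊗_R Λ ≠ 0`; a system of eigenvalues which occurs on a
nonzero quotient of a finite-dimensional space also occurs on a nonzero vector.)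

Application: `R` = the weight-two Hecke algebra of level `M`, `Λ = Hom_par(Γ₁(M), ℤ)`.
-/
import Mathlib
import Fermat.Agent.ES.LR.DualOcc8

set_option autoImplicit false

namespace Fermat.Agent.DS.Geo.EigenModL

open TensorProduct

section Generic

variable {K : Type*} [Field K] {V : Type*} [AddCommGroup V] [Module K V] [FiniteDimensional K V]
  {ι : Type*} (θ : ι → Module.End K V) (hθ : ∀ i j, Commute (θ i) (θ j)) (a : ι → K)

include hθ in
/-- A system of eigenvalues occurring on a linear functional occurs on a vector. -/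
theorem exists_eigenvector_of_functional {ψ : V →ₗ[K] K} (hψ0 : ψ ≠ 0)
    (hψ : ∀ i x, ψ (θ i x) = a i * ψ x) :
    ∃ w : V, w ≠ 0 ∧ ∀ i, θ i w = a i • w := by
  -- the transposes form a commuting family on the dual with eigenvector `ψ`
  let θd : ι → Module.End K (Module.Dual K V) := fun i => Module.Dual.transpose (θ i)
  have hθd : ∀ i j, Commute (θd i) (θd j) := by
    intro i j
    change Module.Dual.transpose (θ i) * Module.Dual.transpose (θ j)
      = Module.Dual.transpose (θ j) * Module.Dual.transpose (θ i)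
    rw [Module.End.mul_eq_comp, Module.End.mul_eq_comp, ← Module.Dual.transpose_comp,
      ← Module.Dual.transpose_comp, ← Module.End.mul_eq_comp, ← Module.End.mul_eq_comp,
      (hθ j i).eq]
  have hψd : ∀ i, θd i ψ = a i • ψ := by
    intro i
    ext x
    simp [θd, Module.Dual.transpose_apply, hψ]
  obtain ⟨Ψ, hΨ0, hΨ⟩ :=
    Fermat.Agent.ES.LR.DualOcc8.exists_eigenfunctional θd hθd a hψ0 hψd
  refine ⟨(Module.evalEquiv K V).symm Ψ, ?_, fun i => ?_⟩
  · intro h
    exact hΨ0 ((LinearEquiv.symm_apply_eq _).mp h ▸ by simp)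
  · set w := (Module.evalEquiv K V).symm Ψ with hw
    have hΨw : ∀ φ : Module.Dual K V, Ψ φ = φ w := by
      intro φ
      have : Module.evalEquiv K V w = Ψ := by simp [hw]
      rw [← this]
      simp
    rw [← sub_eq_zero, ← Module.forall_dual_apply_eq_zero_iff K]
    intro φ
    rw [map_sub, map_smul, smul_eq_mul, ← hΨw φ, sub_eq_zero]
    have := hΨ i φ
    rw [hΨw] at this
    simpa [θd, Module.Dual.transpose_apply] using this

include hθ in
/-- A system of eigenvalues occurring on a nonzero quotient occurs on a nonzero vector. -/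
theorem exists_eigenvector_of_map {Q : Type*} [AddCommGroup Q] [Module K Q] (g : V →ₗ[K] Q)
    (hg0 : g ≠ 0) (hg : ∀ i x, g (θ i x) = a i • g x) :
    ∃ w : V, w ≠ 0 ∧ ∀ i, θ i w = a i • w := by
  have hlt : LinearMap.ker g < ⊤ := by
    rw [lt_top_iff_ne_top]
    intro h
    exact hg0 (LinearMap.ker_eq_top.mp h)
  obtain ⟨ψ, hψ0, hψ⟩ := Submodule.exists_le_ker_of_lt_top _ hlt
  refine exists_eigenvector_of_functional θ hθ a hψ0 fun i x => ?_
  have hmem : θ i x - a i • x ∈ LinearMap.ker ψ := by
    apply hψ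
    rw [LinearMap.mem_ker, map_sub, map_smul, hg, sub_self]
  rw [LinearMap.mem_ker, map_sub, map_smul, smul_eq_mul, sub_eq_zero] at hmem
  exact hmem

end Generic

section Tensor

variable {R : Type*} [CommRing R] {Λ : Type*} [AddCommGroup Λ] {k : Type*} [Field k]

/-- For a finite faithful module `Λ` over a commutative ring `R` and a ring homomorphism
`R → k` to a field, the base change `k ⊗_R Λ` is nonzero. -/
theorem nontrivial_tensor_of_faithful [Module R Λ] [Module.Finite R Λ] [Algebra R k]
    (hfaith : ∀ r : R, (∀ x : Λ, r • x = 0) → r = 0) : Nontrivial (k ⊗[R] Λ) := by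
  -- the kernel prime
  let 𝔭 : Ideal R := RingHom.ker (algebraMap R k)
  have h𝔭 : 𝔭.IsPrime := RingHom.ker_isPrime _
  let P : PrimeSpectrum R := ⟨𝔭, h𝔭⟩
  have hann : Module.annihilator R Λ = ⊥ := by
    rw [eq_bot_iff]
    intro r hr
    rw [Module.mem_annihilator] at hr
    exact (Submodule.mem_bot R).mpr (hfaith r hr)
  have hsupp : P ∈ Module.support R Λ := by
    rw [Module.mem_support_iff_of_finite, hann]
    exact bot_le
  have hκ : Nontrivial (𝔭.ResidueField ⊗[R] Λ) :=
    (Module.mem_support_iff_nontrivial_residueField_tensorProduct P).mp hsupp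
  -- `k` is a field extension of the residue field
  let f : 𝔭.ResidueField →+* k := Ideal.ResidueField.lift 𝔭 (algebraMap R k) le_rfl (by
    intro r hr
    rw [Submonoid.mem_comap]
    change IsUnit (algebraMap R k r)
    rw [isUnit_iff_ne_zero]
    intro h0
    exact hr ((RingHom.mem_ker).mpr h0))
  let _ : Algebra 𝔭.ResidueField k := f.toAlgebra
  have : IsScalarTower R 𝔭.ResidueField k := IsScalarTower.of_algebraMap_eq fun r => by
    change algebraMap R k r = f (algebraMap R 𝔭.ResidueField r)
    rw [Ideal.ResidueField.lift_algebraMap]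
  let e := AlgebraTensorModule.cancelBaseChange R 𝔭.ResidueField k k Λ
  rw [← e.nontrivial_congr]
  exact Module.FaithfullyFlat.lTensor_nontrivial 𝔭.ResidueField k (𝔭.ResidueField ⊗[R] Λ)

end Tensor

section Main

variable {R : Type*} [CommRing R] {Λ : Type*} [AddCommGroup Λ]
  [Module.Finite ℤ Λ] (T : R →+* Module.End ℤ Λ) {k : Type*} [Field k] (χ : R →+* k)

/-- **TOP-B.**  If `R` acts faithfully on the finite free `ℤ`-module `Λ`, every ring homomorphism
`χ : R →+* k` to a field occurs as a system of eigenvalues on `k ⊗_ℤ Λ`. -/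
theorem exists_eigenvector_tensor_field (hT : Function.Injective T) :
    ∃ w : k ⊗[ℤ] Λ, w ≠ 0 ∧ ∀ r, (T r).baseChange k w = χ r • w := by
  let _ : Module R Λ := Module.compHom Λ T
  let _ : Algebra R k := χ.toAlgebra
  have hsmul : ∀ (r : R) (x : Λ), r • x = T r x := fun _ _ => rfl
  have halg : ∀ r : R, algebraMap R k r = χ r := fun _ => rfl
  have : Module.Finite R Λ := Module.Finite.of_restrictScalars_finite ℤ R Λ
  have hfaith : ∀ r : R, (∀ x : Λ, r • x = 0) → r = 0 := by
    intro r hr
    apply hT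
    rw [map_zero]
    ext x
    exact hr x
  have : Nontrivial (k ⊗[R] Λ) := nontrivial_tensor_of_faithful hfaith
  -- the comparison map
  let g : k ⊗[ℤ] Λ →ₗ[k] k ⊗[R] Λ := TensorProduct.mapOfCompatibleSMul R ℤ k k Λ
  have hgsurj : Function.Surjective g := TensorProduct.mapOfCompatibleSMul_surjective R ℤ k k Λ
  have hg0 : g ≠ 0 := by
    intro h
    obtain ⟨y, hy⟩ := exists_ne (0 : k ⊗[R] Λ)
    obtain ⟨x, rfl⟩ := hgsurj y
    exact hy (by rw [h, LinearMap.zero_apply])
  have hg : ∀ (r : R) (x : k ⊗[ℤ] Λ), g ((T r).baseChange k x) = χ r • g x := by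
    intro r x
    induction x with
    | zero => simp
    | add x y hx hy => rw [map_add, map_add, hx, hy, map_add, smul_add]
    | tmul c x =>
      rw [LinearMap.baseChange_tmul]
      change c ⊗ₜ[R] (T r x) = χ r • (c ⊗ₜ[R] x)
      rw [← hsmul, ← TensorProduct.smul_tmul, TensorProduct.smul_tmul', Algebra.smul_def, halg,
        smul_eq_mul]
  have hcomm : ∀ r s : R, Commute ((T r).baseChange k) ((T s).baseChange k) := by
    intro r s
    change (T r).baseChange k * (T s).baseChange k = (T s).baseChange k * (T r).baseChange k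
    rw [Module.End.mul_eq_comp, Module.End.mul_eq_comp, ← LinearMap.baseChange_comp,
      ← LinearMap.baseChange_comp, ← Module.End.mul_eq_comp, ← Module.End.mul_eq_comp,
      ← map_mul, ← map_mul, mul_comm]
  exact exists_eigenvector_of_map (fun r : R => (T r).baseChange k) hcomm (fun r => χ r) g hg0 hg

/-- **TOP-B, base-change form.**  The same for a module `M` over a ring `A` which is a base
change of `Λ` (e.g. `A = ℤ_ℓ`, `M = T_ℓ J`, `ι₀ : Λ → T_ℓ J` the comparison map) and a family of
`A`-linear operators `θ r` on `M` extending the action of `R` on `Λ`: every `χ : R →+* k` occurs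
on `k ⊗_A M`. -/
theorem exists_eigenvector_of_isBaseChange (hT : Function.Injective T)
    {A : Type*} [CommRing A] {M : Type*} [AddCommGroup M] [Module A M] [Algebra A k]
    (ι₀ : Λ →ₗ[ℤ] M) (hι₀ : IsBaseChange A ι₀) (θ : R → Module.End A M)
    (hθ : ∀ r x, θ r (ι₀ x) = ι₀ (T r x)) :
    ∃ w : k ⊗[A] M, w ≠ 0 ∧ ∀ r, (θ r).baseChange k w = χ r • w := by
  obtain ⟨w, hw0, hw⟩ := exists_eigenvector_tensor_field T χ hT
  have hb : IsBaseChange k (((TensorProduct.mk A k M 1).restrictScalars ℤ).comp ι₀) :=
    hι₀.comp (TensorProduct.isBaseChange A M k)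
  let E : k ⊗[ℤ] Λ ≃ₗ[k] k ⊗[A] M := hb.equiv
  have hE : ∀ (c : k) (x : Λ), E (c ⊗ₜ[ℤ] x) = c ⊗ₜ[A] ι₀ x := by
    intro c x
    change hb.equiv (c ⊗ₜ[ℤ] x) = _
    rw [IsBaseChange.equiv_tmul]
    change c • ((1 : k) ⊗ₜ[A] ι₀ x) = _
    rw [TensorProduct.smul_tmul', smul_eq_mul, mul_one]
  have hcompat : ∀ (r : R) (v : k ⊗[ℤ] Λ),
      (θ r).baseChange k (E v) = E ((T r).baseChange k v) := by
    intro r v
    induction v with
    | zero => simp
    | add x y hx hy => rw [map_add, map_add, hx, hy, map_add, map_add]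
    | tmul c x => rw [hE, LinearMap.baseChange_tmul, LinearMap.baseChange_tmul, hE, hθ]
  refine ⟨E w, fun h => hw0 (E.map_eq_zero_iff.mp h), fun r => ?_⟩
  rw [hcompat, hw, map_smul]

end Main

end Fermat.Agent.DS.Geo.EigenModL
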