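/-
DS programme (S48), GEO, brick TOP-A (helper93): the mod-`l` BACK END, packaged.

Input: a field `k` (`2 ≠ 0`), a finite-dimensional `k`-space `W` with commuting actions
`ρ : G_ℚ →* End k W` and `θ : H →+* End k W` of the absolute Galois group and of a ring `H`
("Hecke algebra"), a ring homomorphism `χ : H →+* k` occurring in `W` (nonzero eigenvector), a character
`d : G_ℚ →* kˣ` with `d(complex conjugation) = -1`; both `ρ` and `d` of finite level.  Outside a finite
set `S` of primes: `ρ` and `d` are unramified, and every Frobenius lift `σ` at `p` satisfies the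
Eichler--Shimura relation `ρ σ ² - θ (tp p) ρ σ + θ (dp p) = 0` and `d σ = χ (dp p)`.

Output: a Prelude `ResidualGaloisRep k` (two-dimensional, finite level), unramified outside `S`, with
`charpoly (Frob_p) = X² - χ (tp p) X + χ (dp p)` for all primes `p ∉ S`.

Proof: restrict to the `χ`-eigenspace of `W` (stable under `G_ℚ`), where the relation has scalar
coefficients; generator-form Chebotarev (`ES/GAL/ChebQbar23`) makes the powers of Frobenius lifts reach
every `(ρ g, d g)`; then `DS/G/Top/RankTwoField.exists_rep_of_eigenSpace` (helper71).  No semisimplicity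
is claimed.  (For `Gamma1(M)`: `tp p = T_p`, `dp p = p ⟨p⟩`, `S` = primes dividing `M l`.)
-/
import Mathlib
import Fermat.Prelude.Def_GaloisRep_Residual
import Fermat.Prelude.Def_GaloisRep_ComplexConjugation
import Fermat.Agent.DS.G.Top.RankTwoField
import Fermat.Agent.ES.GAL.ChebQbar23

set_option autoImplicit false

open Polynomial

noncomputable section

namespace Fermat.Agent.DS.Geo.ResidualOfEigen

local notation "Qb" => AlgebraicClosure ℚ
local notation "GQ" => (AlgebraicClosure ℚ ≃ₐ[ℚ] AlgebraicClosure ℚ)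

section Eigen

variable {k : Type*} [Field k] {W : Type*} [AddCommGroup W] [Module k W]
variable {H : Type*} [Semiring H]

/-- the common eigenspace of `θ` with eigencharacter `χ`. -/
def eigenSpace (θ : H →+* Module.End k W) (χ : H →+* k) : Submodule k W where
  carrier := {v | ∀ t, θ t v = χ t • v}
  add_mem' := by
    intro a b ha hb t
    rw [map_add, ha t, hb t, smul_add]
  zero_mem' := by
    intro t
    rw [map_zero, smul_zero]
  smul_mem' := by
    intro c v hv t
    rw [map_smul, hv t, smul_comm]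

theorem mem_eigenSpace {θ : H →+* Module.End k W} {χ : H →+* k} {v : W} :
    v ∈ eigenSpace θ χ ↔ ∀ t, θ t v = χ t • v := Iff.rfl

variable {θ : H →+* Module.End k W} {χ : H →+* k}
variable {G : Type*} [Group G] (ρ : G →* Module.End k W) (hcomm : ∀ g t, Commute (ρ g) (θ t))

include hcomm in
theorem map_mem_eigenSpace (g : G) {v : W} (hv : v ∈ eigenSpace θ χ) :
    ρ g v ∈ eigenSpace θ χ := by
  intro t
  have h : (ρ g * θ t) v = (θ t * ρ g) v := by rw [(hcomm g t).eq]
  rw [Module.End.mul_apply, Module.End.mul_apply] at h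
  rw [← h, hv t, map_smul]

/-- the action of `G` on the eigenspace. -/
def restrictRep : G →* Module.End k (eigenSpace θ χ) where
  toFun g := (ρ g).restrict (fun _ hv => map_mem_eigenSpace ρ hcomm g hv)
  map_one' := by
    refine LinearMap.ext fun v => Subtype.ext ?_
    rw [LinearMap.coe_restrict_apply, map_one]
    rfl
  map_mul' g h := by
    refine LinearMap.ext fun v => Subtype.ext ?_
    rw [LinearMap.coe_restrict_apply, map_mul]
    rfl

theorem coe_restrictRep_apply (g : G) (v : eigenSpace θ χ) :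
    ((restrictRep ρ hcomm g v : eigenSpace θ χ) : W) = ρ g (v : W) := rfl

theorem restrictRep_eq_one {g : G} (hg : ρ g = 1) : restrictRep (χ := χ) ρ hcomm g = 1 := by
  refine LinearMap.ext fun v => Subtype.ext ?_
  rw [coe_restrictRep_apply, hg]
  rfl

/-- the Eichler--Shimura relation on the eigenspace has scalar coefficients. -/
theorem quad_restrictRep {σ : G} {t u : H} (h : ρ σ * ρ σ - θ t * ρ σ + θ u = 0) :
    restrictRep (χ := χ) ρ hcomm σ * restrictRep ρ hcomm σ - χ t • restrictRep ρ hcomm σ +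
      χ u • (1 : Module.End k (eigenSpace θ χ)) = 0 := by
  refine LinearMap.ext fun v => Subtype.ext ?_
  have h1 : (ρ σ * ρ σ - θ t * ρ σ + θ u) (v : W) = 0 := by rw [h]; rfl
  rw [LinearMap.add_apply, LinearMap.sub_apply, Module.End.mul_apply, Module.End.mul_apply,
    map_mem_eigenSpace ρ hcomm σ v.2 t, v.2 u] at h1
  exact h1

/-- the linear coefficient of a quadratic relation of an invertible endomorphism is unique. -/
theorem coeff_unique {E : Type*} [AddCommGroup E] [Module k E] [Nontrivial E]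
    {R : Module.End k E} (R' : Module.End k E) (hR : R' * R = 1) {a a' b : k}
    (h : R * R - a • R + b • (1 : Module.End k E) = 0)
    (h' : R * R - a' • R + b • (1 : Module.End k E) = 0) : a = a' := by
  have h1 : (a' - a) • R = 0 := by
    have : (a' - a) • R = (R * R - a • R + b • (1 : Module.End k E)) -
        (R * R - a' • R + b • (1 : Module.End k E)) := by
      rw [sub_smul]; abel
    rw [this, h, h', sub_zero]
  have h2 : (a' - a) • (1 : Module.End k E) = 0 := by
    rw [← hR, ← mul_smul_comm, h1, mul_zero]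
  obtain ⟨v, hv⟩ := exists_ne (0 : E)
  have h3 : (a' - a) • v = 0 := by
    have := congrArg (fun f : Module.End k E => f v) h2
    simpa using this
  rcases smul_eq_zero.mp h3 with h4 | h4
  · exact (sub_eq_zero.mp h4).symm
  · exact absurd h4 hv

end Eigen

section Main

variable {k : Type} [Field k] {W : Type} [AddCommGroup W] [Module k W] [Module.Finite k W]
variable {H : Type*} [Semiring H]

/-- Frobenius lifts at the primes outside `S`. -/
def frobSet (S : Finset ℕ) : Set GQ :=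
  {σ | ∃ p : ℕ, p.Prime ∧ p ∉ S ∧ ∃ A : ValuationSubring Qb,
    A.LiesOverPrime p ∧ A.IsFrobeniusAt σ p}

/-- **TOP-A: the mod-`l` back end.** -/
theorem exists_residualRep (h2 : (2 : k) ≠ 0)
    (ρ : GQ →* Module.End k W) (θ : H →+* Module.End k W)
    (hcomm : ∀ g t, Commute (ρ g) (θ t))
    (χ : H →+* k) (heig : ∃ v : W, v ≠ 0 ∧ ∀ t, θ t v = χ t • v)
    (hρ : GaloisFactorsThroughFiniteLevel ρ)
    (d : GQ →* kˣ) (hd : GaloisFactorsThroughFiniteLevel d)
    (hdc : ((d complexConjugation : kˣ) : k) = -1)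
    (S : Finset ℕ) (tp dp : ℕ → H)
    (hES : ∀ p : ℕ, p.Prime → p ∉ S → ∀ A : ValuationSubring Qb, A.LiesOverPrime p →
      ∀ σ : GQ, A.IsFrobeniusAt σ p →
        ρ σ * ρ σ - θ (tp p) * ρ σ + θ (dp p) = 0 ∧ ((d σ : kˣ) : k) = χ (dp p))
    (hunr : ∀ p : ℕ, p.Prime → p ∉ S → ∀ A : ValuationSubring Qb, A.LiesOverPrime p →
      ∀ τ ∈ A.inertiaSubgroupIn ℚ, ρ τ = 1 ∧ d τ = 1) :
    ∃ r : ResidualGaloisRep k, ∀ p : ℕ, p.Prime → p ∉ S →
      r.IsUnramifiedAt p ∧
      ∀ A : ValuationSubring Qb, A.LiesOverPrime p → ∀ σ : GQ, A.IsFrobeniusAt σ p →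
        LinearMap.charpoly (r.ρ σ) = X ^ 2 - C (χ (tp p)) * X + C (χ (dp p)) := by
  classical
  have hEne : Nontrivial (eigenSpace θ χ) := by
    obtain ⟨v, hv0, hv⟩ := heig
    exact ⟨⟨⟨v, hv⟩, 0, fun h => hv0 (congrArg Subtype.val h)⟩⟩
  set ρE : GQ →* Module.End k (eigenSpace θ χ) := restrictRep ρ hcomm with hρE
  have hρE1 : ∀ g, ρ g = 1 → ρE g = 1 := fun g hg => restrictRep_eq_one ρ hcomm hg
  -- the relation on the eigenspace
  have hrel : ∀ p : ℕ, p.Prime → p ∉ S → ∀ A : ValuationSubring Qb, A.LiesOverPrime p →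
      ∀ σ : GQ, A.IsFrobeniusAt σ p →
      ρE σ * ρE σ - χ (tp p) • ρE σ +
        ((d σ : kˣ) : k) • (1 : Module.End k (eigenSpace θ χ)) = 0 := by
    intro p hp hpS A hA σ hσ
    obtain ⟨h1, h2'⟩ := hES p hp hpS A hA σ hσ
    rw [h2']
    exact quad_restrictRep ρ hcomm h1
  -- the trace function on the Frobenius lifts
  let aΦ : GQ → k := fun σ =>
    if h : ∃ a : k, ρE σ * ρE σ - a • ρE σ +
        ((d σ : kˣ) : k) • (1 : Module.End k (eigenSpace θ χ)) = 0 then h.choose else 0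
  have haΦ : ∀ p : ℕ, p.Prime → p ∉ S → ∀ A : ValuationSubring Qb, A.LiesOverPrime p →
      ∀ σ : GQ, A.IsFrobeniusAt σ p → aΦ σ = χ (tp p) := by
    intro p hp hpS A hA σ hσ
    have hex : ∃ a : k, ρE σ * ρE σ - a • ρE σ +
        ((d σ : kˣ) : k) • (1 : Module.End k (eigenSpace θ χ)) = 0 :=
      ⟨_, hrel p hp hpS A hA σ hσ⟩
    have h1 : aΦ σ = hex.choose := dif_pos hex
    rw [h1]
    exact coeff_unique (ρE σ⁻¹) (by rw [← map_mul, inv_mul_cancel, map_one]) hex.choose_spec
      (hrel p hp hpS A hA σ hσ)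
  have hΦ : ∀ σ ∈ frobSet S, ρE σ * ρE σ - aΦ σ • ρE σ +
      ((d σ : kˣ) : k) • (1 : Module.End k (eigenSpace θ χ)) = 0 := by
    rintro σ ⟨p, hp, hpS, A, hA, hσ⟩
    rw [haΦ p hp hpS A hA σ hσ]
    exact hrel p hp hpS A hA σ hσ
  obtain ⟨L₁, hL₁, H₁⟩ := hρ
  obtain ⟨L₂, hL₂, H₂⟩ := hd
  have := hL₁
  have := hL₂
  have hdense : ∀ g : GQ, ∃ σ ∈ frobSet S, ∃ j : ℕ, ρE g = ρE σ ^ j ∧
      ((d g : kˣ) : k) = ((d σ : kˣ) : k) ^ j := by
    intro g
    obtain ⟨p, A, φ, j, hp, hpS, hA, hφ, hfix⟩ :=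
      Fermat.Agent.ES.GAL.ChebQbar23.exists_frobenius_inv_mul_pow_fixes (L₁ ⊔ L₂) g S
    refine ⟨φ, ⟨p, hp, hpS, A, hA, hφ⟩, j, ?_, ?_⟩
    · have h1 : ρE (g⁻¹ * φ ^ j) = 1 :=
        hρE1 _ (H₁ _ fun x hx => hfix x ((le_sup_left : L₁ ≤ L₁ ⊔ L₂) hx))
      calc ρE g = ρE g * ρE (g⁻¹ * φ ^ j) := by rw [h1, mul_one]
        _ = ρE (φ ^ j) := by rw [← map_mul, mul_inv_cancel_left]
        _ = ρE φ ^ j := map_pow _ _ _
    · have h1 : d (g⁻¹ * φ ^ j) = 1 :=
        H₂ _ fun x hx => hfix x ((le_sup_right : L₂ ≤ L₁ ⊔ L₂) hx)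
      have h3 : d g = d φ ^ j := by
        calc d g = d g * d (g⁻¹ * φ ^ j) := by rw [h1, mul_one]
          _ = d (φ ^ j) := by rw [← map_mul, mul_inv_cancel_left]
          _ = d φ ^ j := map_pow _ _ _
      rw [h3, Units.val_pow_eq_pow_val]
  obtain ⟨V, i1, i2, i3, ρ', hrk, hchar, _, htriv⟩ :=
    Fermat.Agent.DS.G.Top.RankTwoField.exists_rep_of_eigenSpace h2 ρE d (frobSet S) aΦ hΦ hdense
      complexConjugation complexConjugation_mul_self hdc
  refine ⟨{ V := V, finrank_eq := hrk, ρ := ρ',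
            factorsThroughFiniteLevel := ⟨L₁ ⊔ L₂, inferInstance, fun σ hσ => ?_⟩ }, ?_⟩
  · exact htriv σ (hρE1 σ (H₁ σ fun x hx => hσ x ((le_sup_left : L₁ ≤ L₁ ⊔ L₂) hx)))
      (H₂ σ fun x hx => hσ x ((le_sup_right : L₂ ≤ L₁ ⊔ L₂) hx))
  · intro p hp hpS
    refine ⟨fun A hA τ hτ => ?_, fun A hA σ hσ => ?_⟩
    · obtain ⟨h1, h2'⟩ := hunr p hp hpS A hA τ hτ
      exact htriv τ (hρE1 τ h1) h2'
    · show LinearMap.charpoly (ρ' σ) = _
      rw [hchar σ ⟨p, hp, hpS, A, hA, hσ⟩, haΦ p hp hpS A hA σ hσ,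
        (hES p hp hpS A hA σ hσ).2]

end Main

end Fermat.Agent.DS.Geo.ResidualOfEigen
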