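/-
DS programme (S48), GEO, brick TOP-D (helper93): the ABSTRACT Eichler--Shimura relation with a
diamond operator, and its transfer to torsion points through a reduction map which is injective on
torsion.  Generic twins of `ES/KRON/EsPic11.es_relation_of_frob` and of the two abstract lemmas of
`ES/TOP/TorsionGalois12` (`smul_eq_of_injOn_torsion`, `relation_of_injOn_torsion`).

Setting: `red : J →+ J'` ("reduction of `Pic⁰`"), `T, D : J →+ J` (Hecke operator `T_l`, diamond `⟨l⟩`),
`σ` a Frobenius lift acting on `J`, `Fr, Fri : J' → J'` with `Fri ∘ Fr = id`.  From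
`red ∘ T = Fr ∘ red + l • Fri ∘ red ∘ D` (the congruence `T_l ≡ F + ⟨l⟩ V`), `red ∘ σ = Fr ∘ red` and
`D ∘ σ = σ ∘ D` we get `red (σ² x - T (σ x) + l • D x) = 0`.
-/
import Mathlib

set_option autoImplicit false

namespace Fermat.Agent.DS.Geo.EsRelDia

section Abstract

variable {J J' : Type*} [AddCommGroup J] [AddCommGroup J']

/-- **Eichler--Shimura relation with diamond, after reduction.** -/
theorem es_relation_of_frob_dia (red : J →+ J') (T D : J →+ J) (σ : J → J) (Fr Fri : J' → J')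
    (hFri : ∀ z, Fri (Fr z) = z) (l : ℕ)
    (hT : ∀ y, red (T y) = Fr (red y) + (l : ℤ) • Fri (red (D y)))
    (hσ : ∀ x, red (σ x) = Fr (red x)) (hDσ : ∀ x, D (σ x) = σ (D x)) (x : J) :
    red (σ (σ x) - T (σ x) + l • D x) = 0 := by
  rw [map_add, map_sub, map_nsmul, hT, hσ, hσ, hDσ, hσ, hFri, natCast_zsmul]
  abel

/-- variant: the diamond is given downstairs (`dia'`) and is compatible with the reduction. -/
theorem es_relation_of_frob_dia' (red : J →+ J') (T D : J →+ J) (σ : J → J) (Fr Fri dia' : J' → J')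
    (hFri : ∀ z, Fri (Fr z) = z) (l : ℕ)
    (hT : ∀ y, red (T y) = Fr (red y) + (l : ℤ) • Fri (dia' (red y)))
    (hD : ∀ y, red (D y) = dia' (red y))
    (hσ : ∀ x, red (σ x) = Fr (red x)) (hDσ : ∀ x, D (σ x) = σ (D x)) (x : J) :
    red (σ (σ x) - T (σ x) + l • D x) = 0 :=
  es_relation_of_frob_dia red T D σ Fr Fri hFri l (fun y => by rw [hT, hD]) hσ hDσ x

end Abstract

section Torsion

variable {Γ J G : Type*} [Monoid Γ] [AddCommGroup J] [DistribMulAction Γ J] [AddCommGroup G]

theorem smul_nsmul_comm (σ : Γ) (m : ℕ) (x : J) : σ • (m • x) = m • (σ • x) :=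
  map_nsmul (DistribSMul.toAddMonoidHom J σ) m x

/-- inertia acts trivially on the torsion on which the reduction is injective. -/
theorem smul_eq_of_injOn_torsion (Φ : J →+ G) (m : ℕ)
    (h3 : ∀ x : J, m • x = 0 → Φ x = 0 → x = 0) (τ : Γ) (x : J) (hx : m • x = 0)
    (h1 : Φ (τ • x) = Φ x) : τ • x = x := by
  have h : τ • x - x = 0 := by
    refine h3 _ ?_ ?_
    · rw [smul_sub, ← smul_nsmul_comm, hx, smul_zero, sub_zero]
    · rw [map_sub, h1, sub_self]
  exact sub_eq_zero.mp h

/-- **the Eichler--Shimura relation with diamond on torsion points.** -/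
theorem relation_of_injOn_torsion_dia (Φ : J →+ G) (m l : ℕ)
    (h3 : ∀ x : J, m • x = 0 → Φ x = 0 → x = 0) (T D : J →+ J) (σ : Γ) (x : J) (hx : m • x = 0)
    (h2 : Φ (σ • σ • x - T (σ • x) + l • D x) = 0) : σ • σ • x - T (σ • x) + l • D x = 0 := by
  refine h3 _ ?_ h2
  rw [smul_add, smul_sub, ← smul_nsmul_comm, ← smul_nsmul_comm, hx, smul_zero, smul_zero,
    ← map_nsmul T, ← smul_nsmul_comm, hx, smul_zero, map_zero, smul_comm m l, ← map_nsmul D, hx,
    map_zero, smul_zero, sub_zero, add_zero]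

/-- **TOP-D**: from the three reduction compatibilities to the relation on `m`-torsion. -/
theorem frobenius_relation_dia (Φ : J →+ G) (m l : ℕ)
    (h3 : ∀ x : J, m • x = 0 → Φ x = 0 → x = 0) (T D : J →+ J) (σ : Γ) (Fr Fri : G → G)
    (hFri : ∀ z, Fri (Fr z) = z)
    (hT : ∀ y, Φ (T y) = Fr (Φ y) + (l : ℤ) • Fri (Φ (D y)))
    (hσ : ∀ x : J, Φ (σ • x) = Fr (Φ x)) (hDσ : ∀ x : J, D (σ • x) = σ • D x)
    (x : J) (hx : m • x = 0) : σ • σ • x - T (σ • x) + l • D x = 0 :=
  relation_of_injOn_torsion_dia Φ m l h3 T D σ x hx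
    (es_relation_of_frob_dia Φ T D (fun y => σ • y) Fr Fri hFri l hT hσ hDσ x)

end Torsion

end Fermat.Agent.DS.Geo.EsRelDia
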