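/-
DS programme (S48), GEO half, brick GEO-FIN-TJ (helper93): the Tate-module fields of
`DS/G/Top/Inputs.GeoInputs M ℓ` for an ABSTRACT abelian group `J` with `G_ℚ`-action
(twin of `ES/J/TateJZero13`, with the diamond operators).

Input: additive endomorphisms `Tp hp hpM`, `Dia d` of `J` commuting with `G_ℚ`, and the
torsion-level statements (shape of `ES/TOP/TorsionGalois12`, `ES/GAL/OpenStab12`):
* `hlevel`: `J[ℓ]` is fixed by an open subgroup;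
* `hinertia`: inertia at `q ∤ M ℓ` fixes the `ℓ`-power torsion;
* `hfrob`: `σ σ y - T_p (σ y) + p ⟨p⟩ y = 0` on `ℓ`-power torsion, `σ` a Frobenius lift at `p ∤ M ℓ`.
Output, on `TJ := TateModule ℓ J`, `ρ := rho ℓ J`, `bT hp hpM := map (Tp hp hpM)`,
`bD d := map (Dia d)`: `commute_T`, `commute_D`, `finiteLevel`, `unramified`, `frobenius` in EXACTLY the
shapes of the `GeoInputs` fields, and the constructor `geoInputsOfTorsion` taking the lattice side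
(`Lam`, `R`, `act`, `gT`, `gD`, `gen`, `π`, …) and the comparison `ι₀` as arguments.
-/
import Mathlib
import Fermat.Agent.ES.J.TateModule13
import Fermat.Agent.DS.G.Top.Inputs

set_option autoImplicit false
set_option linter.unusedSectionVars false

noncomputable section

namespace Fermat.Agent.DS.Geo.TateJOne

open Fermat.Agent.ES.J.TateModule13
open Fermat.Agent.DS.Hecke1.Algebra Fermat.Agent.DS.Hecke1.HeckeT1
open Fermat.Agent.DS.G.Top.Inputs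

local notation "Qb" => AlgebraicClosure ℚ
local notation "GQ" => (AlgebraicClosure ℚ ≃ₐ[ℚ] AlgebraicClosure ℚ)

variable {M : ℕ} [NeZero M] {ℓ : ℕ} [hℓ : Fact ℓ.Prime]
variable {J : Type} [AddCommGroup J] [DistribMulAction GQ J]
variable (Tp : ∀ {p : ℕ}, p.Prime → ¬ p ∣ M → (J →+ J)) (Dia : (ZMod M)ˣ → (J →+ J))

/-- `T_p` on the Tate module. -/
def bT {p : ℕ} (hp : p.Prime) (hpM : ¬ p ∣ M) : Module.End ℤ_[ℓ] (TateModule ℓ J) :=
  map (Tp hp hpM)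

/-- `⟨d⟩` on the Tate module. -/
def bD (d : (ZMod M)ˣ) : Module.End ℤ_[ℓ] (TateModule ℓ J) := map (Dia d)

theorem proj_bT {p : ℕ} (hp : p.Prime) (hpM : ¬ p ∣ M) (x : TateModule ℓ J) (k : ℕ) :
    proj k (bT (ℓ := ℓ) Tp hp hpM x) = Tp hp hpM (proj k x) := rfl

theorem proj_bD (d : (ZMod M)ˣ) (x : TateModule ℓ J) (k : ℕ) :
    proj k (bD (ℓ := ℓ) Dia d x) = Dia d (proj k x) := rfl

/-- the Galois action commutes with the map induced by an equivariant endomorphism. -/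
theorem commute_rho_map (f : J →+ J) (hf : ∀ (σ : GQ) (x : J), f (σ • x) = σ • f x) (g : GQ) :
    Commute (rho ℓ J g) (map f : Module.End ℤ_[ℓ] (TateModule ℓ J)) := by
  show rho ℓ J g * map f = map f * rho ℓ J g
  ext x k
  exact (hf g _).symm

/-- field `commute_T`. -/
theorem commute_T
    (hTpG : ∀ {p : ℕ} (hp : p.Prime) (hpM : ¬ p ∣ M) (σ : GQ) (x : J),
      Tp hp hpM (σ • x) = σ • Tp hp hpM x)
    (g : GQ) {p : ℕ} (hp : p.Prime) (hpM : ¬ p ∣ M) :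
    Commute (rho ℓ J g) (bT (ℓ := ℓ) Tp hp hpM) :=
  commute_rho_map _ (hTpG hp hpM) g

/-- field `commute_D`. -/
theorem commute_D (hDiaG : ∀ (d : (ZMod M)ˣ) (σ : GQ) (x : J), Dia d (σ • x) = σ • Dia d x)
    (g : GQ) (d : (ZMod M)ˣ) : Commute (rho ℓ J g) (bD (ℓ := ℓ) Dia d) :=
  commute_rho_map _ (hDiaG d) g

/-- field `finiteLevel`. -/
theorem finiteLevel
    (hlevel : ∃ L : IntermediateField ℚ Qb, FiniteDimensional ℚ L ∧
      ∀ σ : GQ, (∀ a ∈ L, σ a = a) → ∀ y : J, ℓ • y = 0 → σ • y = y) :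
    ∃ L : IntermediateField ℚ Qb, FiniteDimensional ℚ L ∧
      ∀ σ : GQ, (∀ a ∈ L, σ a = a) → ∀ x : TateModule ℓ J, ∃ y : TateModule ℓ J,
        rho ℓ J σ x - x = (ℓ : ℤ_[ℓ]) • y := by
  obtain ⟨L, hL, h⟩ := hlevel
  refine ⟨L, hL, fun σ hσ x => ?_⟩
  have := rho_sub_mem (p := ℓ) σ 1 (fun y hy => h σ hσ y (by rwa [pow_one] at hy)) x
  rwa [pow_one] at this

/-- field `unramified`. -/
theorem unramified
    (hinertia : ∀ q : ℕ, q.Prime → ¬ q ∣ M → q ≠ ℓ → ∀ A : ValuationSubring Qb,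
      A.LiesOverPrime q → ∀ τ ∈ A.inertiaSubgroupIn ℚ, ∀ (n : ℕ) (y : J), ℓ ^ n • y = 0 →
        τ • y = y) :
    ∀ q : ℕ, q.Prime → ¬ q ∣ M → q ≠ ℓ →
      ∀ A : ValuationSubring Qb, A.LiesOverPrime q → ∀ τ ∈ A.inertiaSubgroupIn ℚ,
        rho ℓ J τ = 1 :=
  fun q hq hqM hqℓ A hA τ hτ => rho_eq_one τ (hinertia q hq hqM hqℓ A hA τ hτ)

/-- field `frobenius`. -/
theorem frobenius
    (hfrob : ∀ {p : ℕ} (hp : p.Prime) (hpM : ¬ p ∣ M), p ≠ ℓ → ∀ A : ValuationSubring Qb,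
      A.LiesOverPrime p → ∀ σ : GQ, A.IsFrobeniusAt σ p → ∀ (n : ℕ) (y : J), ℓ ^ n • y = 0 →
        σ • σ • y - Tp hp hpM (σ • y) + p • Dia (unitP hp hpM) y = 0)
    {p : ℕ} (hp : p.Prime) (hpM : ¬ p ∣ M) (hpℓ : p ≠ ℓ)
    (A : ValuationSubring Qb) (hA : A.LiesOverPrime p) (σ : GQ) (hσ : A.IsFrobeniusAt σ p) :
    rho ℓ J σ * rho ℓ J σ - bT (ℓ := ℓ) Tp hp hpM * rho ℓ J σ +
      (p : ℤ_[ℓ]) • bD (ℓ := ℓ) Dia (unitP hp hpM) = 0 := by
  refine LinearMap.ext fun x => ?_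
  ext k
  show σ • σ • proj k x - Tp hp hpM (σ • proj k x) +
    proj k ((p : ℤ_[ℓ]) • map (Dia (unitP hp hpM)) x) = 0
  rw [proj_natCast_smul]
  exact hfrob hp hpM hpℓ A hA σ hσ k (proj k x) (pow_smul_proj k x)

/-- **Constructor of `GeoInputs M ℓ`** from the lattice side, the comparison `ι₀` and torsion-level
geometry on an abstract `J`. -/
def geoInputsOfTorsion
    (Lam : Type) [AddCommGroup Lam] [Module.Finite ℤ Lam] (R : Type) [CommRing R]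
    (act : R →+* Module.End ℤ Lam) (act_injective : Function.Injective act)
    (gT : ∀ {p : ℕ}, p.Prime → ¬ p ∣ M → R) (gD : (ZMod M)ˣ → R)
    (gen : Algebra.adjoin ℤ
      ({r : R | ∃ (p : ℕ) (hp : p.Prime) (hpM : ¬ p ∣ M), r = gT hp hpM} ∪ Set.range gD) = ⊤)
    (π : R →+* T2 M)
    (π_T : ∀ {p : ℕ} (hp : p.Prime) (hpM : ¬ p ∣ M), π (gT hp hpM) = heckeAlgebra1.T hp hpM)
    (π_D : ∀ d : (ZMod M)ˣ, π (gD d) = heckeAlgebra1.dia d)
    (ι₀ : Lam →ₗ[ℤ] TateModule ℓ J) (isBaseChange : IsBaseChange ℤ_[ℓ] ι₀)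
    (hι₀T : ∀ {p : ℕ} (hp : p.Prime) (hpM : ¬ p ∣ M) (x : Lam),
      map (Tp hp hpM) (ι₀ x) = ι₀ (act (gT hp hpM) x))
    (hι₀D : ∀ (d : (ZMod M)ˣ) (x : Lam), map (Dia d) (ι₀ x) = ι₀ (act (gD d) x))
    (hTpG : ∀ {p : ℕ} (hp : p.Prime) (hpM : ¬ p ∣ M) (σ : GQ) (x : J),
      Tp hp hpM (σ • x) = σ • Tp hp hpM x)
    (hDiaG : ∀ (d : (ZMod M)ˣ) (σ : GQ) (x : J), Dia d (σ • x) = σ • Dia d x)
    (hlevel : ∃ L : IntermediateField ℚ Qb, FiniteDimensional ℚ L ∧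
      ∀ σ : GQ, (∀ a ∈ L, σ a = a) → ∀ y : J, ℓ • y = 0 → σ • y = y)
    (hinertia : ∀ q : ℕ, q.Prime → ¬ q ∣ M → q ≠ ℓ → ∀ A : ValuationSubring Qb,
      A.LiesOverPrime q → ∀ τ ∈ A.inertiaSubgroupIn ℚ, ∀ (n : ℕ) (y : J), ℓ ^ n • y = 0 →
        τ • y = y)
    (hfrob : ∀ {p : ℕ} (hp : p.Prime) (hpM : ¬ p ∣ M), p ≠ ℓ → ∀ A : ValuationSubring Qb,
      A.LiesOverPrime p → ∀ σ : GQ, A.IsFrobeniusAt σ p → ∀ (n : ℕ) (y : J), ℓ ^ n • y = 0 →
        σ • σ • y - Tp hp hpM (σ • y) + p • Dia (unitP hp hpM) y = 0) :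
    GeoInputs M ℓ where
  Lam := Lam
  R := R
  act := act
  act_injective := act_injective
  gT := gT
  gD := gD
  gen := gen
  π := π
  π_T := π_T
  π_D := π_D
  TJ := TateModule ℓ J
  ι₀ := ι₀
  isBaseChange := isBaseChange
  bT := fun hp hpM => bT Tp hp hpM
  bD := fun d => bD Dia d
  bT_ι₀ := hι₀T
  bD_ι₀ := hι₀D
  ρ := rho ℓ J
  commute_T := fun g _ hp hpM => commute_T Tp hTpG g hp hpM
  commute_D := commute_D Dia hDiaG
  finiteLevel := finiteLevel hlevel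
  unramified := unramified hinertia
  frobenius := fun hp hpM hpℓ A hA σ hσ => frobenius Tp Dia hfrob hp hpM hpℓ A hA σ hσ

end Fermat.Agent.DS.Geo.TateJOne
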