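/-
DS programme (S48), GEO half (helper93): **the last plug** for `Contract.HeckeModLReps`:
`G/Top/Inputs2.GeoInputs2 M ℓ` (helper91's generator + eigenvector contract, with the UNCONDITIONAL
lattice side `Per1/LatticeSide2`) from torsion-level geometry on an abstract abelian group `J` with
`G_ℚ`-action (`DS/Geo/TateJOne`).

What remains for the geometry chapters, for `J := Pic⁰(X₁(M)_ℚ̄)`:
* `Tp hp hpM`, `Dia d : J →+ J`, Galois-equivariant (G-HECKE);
* `hfin`, `hlevel` (G-KUM finiteness + OpenStab twin), `hinertia`, `hfrob`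
  (`DS/G/ES/TOP/PhiCore.inertia_smul_eq_core`, `frobenius_relation_core`);
* the Kummer comparison `ι₀ : Lam M →ₗ[ℤ] TateModule ℓ J`, base change `ℤ → ℤ_[ℓ]`, intertwining
  `Tp`, `Dia` with the double coset operators `aT S`, `aD S` for SOME `S : SigmaChoice M`.
-/
import Mathlib
import Fermat.Agent.DS.Geo.TateJOne
import Fermat.Agent.DS.Per1.LatticeSide2
import Fermat.Agent.DS.G.Top.Assemble2

set_option autoImplicit false
set_option linter.unusedSectionVars false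

noncomputable section

namespace Fermat.Agent.DS.Geo.Final2

open Fermat.Agent.ES.J.TateModule13
open Fermat.Agent.ES.J
open Fermat.Agent.DS.Hecke1.Algebra Fermat.Agent.DS.Hecke1.HeckeT1
open Fermat.Agent.DS.G.Top.Inputs2 Fermat.Agent.DS.Per1.LatticeSide2
open Fermat.Agent.DS.Geo.TateJOne

local notation "Qb" => AlgebraicClosure ℚ
local notation "GQ" => (AlgebraicClosure ℚ ≃ₐ[ℚ] AlgebraicClosure ℚ)

variable {M : ℕ} [NeZero M] {ℓ : ℕ} [hℓ : Fact ℓ.Prime]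
variable {J : Type} [AddCommGroup J] [DistribMulAction GQ J]

/-- **`GeoInputs2 M ℓ` from torsion-level geometry on `J`** and the Kummer comparison. -/
def geoInputs2OfTorsion (S : SigmaChoice M)
    (Tp : ∀ {p : ℕ}, p.Prime → ¬ p ∣ M → (J →+ J)) (Dia : (ZMod M)ˣ → (J →+ J))
    (ι₀ : Lam M →ₗ[ℤ] TateModule ℓ J) (isBaseChange : IsBaseChange ℤ_[ℓ] ι₀)
    (hι₀T : ∀ {p : ℕ} (hp : p.Prime) (hpM : ¬ p ∣ M) (x : Lam M),
      TateModule13.map (Tp hp hpM) (ι₀ x) = ι₀ (aT S hp hpM x))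
    (hι₀D : ∀ (d : (ZMod M)ˣ) (x : Lam M), TateModule13.map (Dia d) (ι₀ x) = ι₀ (aD S d x))
    (hTpG : ∀ {p : ℕ} (hp : p.Prime) (hpM : ¬ p ∣ M) (σ : GQ) (x : J),
      Tp hp hpM (σ • x) = σ • Tp hp hpM x)
    (hDiaG : ∀ (d : (ZMod M)ˣ) (σ : GQ) (x : J), Dia d (σ • x) = σ • Dia d x)
    (hlevel : ∃ L : IntermediateField ℚ Qb, FiniteDimensional ℚ L ∧
      ∀ σ : GQ, (∀ a ∈ L, σ a = a) → ∀ y : J, ℓ • y = 0 → σ • y = y)
    (hinertia : ∀ q : ℕ, q.Prime → ¬ q ∣ M → q ≠ ℓ → ∀ A : ValuationSubring Qb,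
      A.LiesOverPrime q → ∀ τ ∈ A.inertiaSubgroupIn ℚ, ∀ (n : ℕ) (y : J), ℓ ^ n • y = 0 →
        τ • y = y)
    (hfrob : ∀ {p : ℕ} (hp : p.Prime) (hpM : ¬ p ∣ M), p ≠ ℓ → ∀ A : ValuationSubring Qb,
      A.LiesOverPrime p → ∀ σ : GQ, A.IsFrobeniusAt σ p → ∀ (n : ℕ) (y : J), ℓ ^ n • y = 0 →
        σ • σ • y - Tp hp hpM (σ • y) + p • Dia (unitP hp hpM) y = 0) :
    GeoInputs2 M ℓ :=
  geoInputs2 S ℓ (TateModule ℓ J) ι₀ isBaseChange (fun hp hpM => bT Tp hp hpM)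
    (fun d => bD Dia d) hι₀T hι₀D (rho ℓ J)
    (fun g _ hp hpM => commute_T Tp hTpG g hp hpM) (commute_D Dia hDiaG)
    (finiteLevel hlevel) (unramified hinertia)
    (fun hp hpM hpℓ A hA σ hσ => frobenius Tp Dia hfrob hp hpM hpℓ A hA σ hσ)

/-- **`HeckeModLReps c'`** from torsion-level geometry at every level divisible by `c'`: it suffices
to produce, for every such `M` and every odd prime `ℓ`, an abelian group `J` with `G_ℚ`-action and the
data of `geoInputs2OfTorsion`. -/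
theorem heckeModLReps_of_torsion (c' : ℕ)
    (h : ∀ (M : ℕ) [NeZero M], c' ∣ M → ∀ (ℓ : ℕ) [Fact ℓ.Prime], ℓ ≠ 2 →
      Nonempty (GeoInputs2 M ℓ)) :
    Fermat.Agent.DS.G.Top.Contract.HeckeModLReps c' :=
  Fermat.Agent.DS.G.Top.Assemble2.heckeModLReps_of_geoInputs2 c' h

end Fermat.Agent.DS.Geo.Final2
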