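/-
DS programme (S48), GEO half, brick GEO-MAIN-SKEL (helper93): from a TATE MODULE with Hecke action
to the mod-`ℓ` representations of the contract `DS/G/Top/Contract.HeckeModLReps`.

Input (all abstract; shape = the exports of the Gamma0 file `ES/J/TateJZero13`):
* a finite `ℤ_[ℓ]`-module `TJ` with commuting actions `ρ : G_ℚ →* End TJ`, `t : H →+* End TJ`
  (`H` a commutative ring, e.g. `T2 M`);
* `hcont`: `ρ` is trivial modulo `ℓ` on an open subgroup;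
* `hunr`: `ρ` is unramified at the primes `p ∤ M ℓ`;
* `hES`: Eichler--Shimura `ρ(σ)² - t(T_p) ρ(σ) + p t(⟨p⟩) = 0` for Frobenius lifts at `p ∤ M ℓ`;
* a monoid hom `dia : (ZMod M)ˣ →* H` with `dia (-1) = 1`;
* a field `k` of characteristic `ℓ ≠ 2` (with any `ℤ_[ℓ]`-algebra structure), a ring hom
  `θ : H →+* k` and a nonzero `θ`-eigenvector in `k ⊗ TJ` (from `DS/Geo/EigenModL`).

Output: `r : ResidualGaloisRep k`, unramified at `p ∤ M ℓ`, with
`charpoly (r.ρ Frob_p) = X² - θ(T_p) X + p θ(⟨p⟩)`.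

The determinant character is `d = (cyclotomic character mod ℓ) · θ ∘ dia ∘ (cyclotomic character
mod M)`; `d(c) = -1` because `dia (-1) = 1`.
-/
import Mathlib
import Fermat.Agent.DS.Geo.ResidualOfEigen
import Fermat.Agent.DS.Geo.CycloModM
import Fermat.Agent.DS.Geo.EigenModL

set_option autoImplicit false

open Polynomial TensorProduct

noncomputable section

namespace Fermat.Agent.DS.Geo.GeoMain

open Fermat.Agent.DS.Geo.ResidualOfEigen Fermat.Agent.DS.Geo.CycloModM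

local notation "Qb" => AlgebraicClosure ℚ
local notation "GQ" => (AlgebraicClosure ℚ ≃ₐ[ℚ] AlgebraicClosure ℚ)

/-! ### finite level calculus -/

section Level

variable {A B : Type} [Monoid A] [Monoid B]

theorem factorsThrough_comp {f : GQ →* A} (hf : GaloisFactorsThroughFiniteLevel f) (ψ : A →* B) :
    GaloisFactorsThroughFiniteLevel (ψ.comp f) := by
  obtain ⟨L, hL, h⟩ := hf
  exact ⟨L, hL, fun σ hσ => by rw [MonoidHom.comp_apply, h σ hσ, map_one]⟩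

theorem factorsThrough_mul {C : Type} [CommMonoid C] {f g : GQ →* C}
    (hf : GaloisFactorsThroughFiniteLevel f) (hg : GaloisFactorsThroughFiniteLevel g) :
    GaloisFactorsThroughFiniteLevel (f * g) := by
  obtain ⟨L, hL, h⟩ := hf
  obtain ⟨L', hL', h'⟩ := hg
  refine ⟨L ⊔ L', ?_, fun σ hσ => ?_⟩
  · exact IntermediateField.finiteDimensional_sup L L'
  · rw [MonoidHom.mul_apply, h σ fun x hx => hσ x ((le_sup_left : L ≤ L ⊔ L') hx),
      h' σ fun x hx => hσ x ((le_sup_right : L' ≤ L ⊔ L') hx), mul_one]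

end Level

/-! ### base change of endomorphisms to `k` -/

section BaseChange

variable {R : Type} [CommRing R] {k : Type} [Field k] [Algebra R k]
variable {TJ : Type} [AddCommGroup TJ] [Module R TJ]

/-- an endomorphism congruent to `1` modulo an element mapping to `0` in `k` becomes `1`. -/
theorem baseChange_eq_one_of_congr (f : Module.End R TJ) (c : R) (hc : algebraMap R k c = 0)
    (hf : ∀ x, ∃ y, f x - x = c • y) : f.baseChange k = 1 := by
  refine LinearMap.ext fun v => ?_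
  induction v with
  | zero => simp
  | add x y hx hy => rw [map_add, map_add, hx, hy]
  | tmul a x =>
    obtain ⟨y, hy⟩ := hf x
    rw [LinearMap.baseChange_tmul, Module.End.one_apply, ← sub_eq_zero, ← TensorProduct.tmul_sub,
      hy, TensorProduct.tmul_smul, ← algebraMap_smul k c (a ⊗ₜ[R] y), hc, zero_smul]

end BaseChange

/-! ### the determinant character -/

section Det

variable (ℓ : ℕ) [hℓ : Fact ℓ.Prime] (M : ℕ) [NeZero M]
variable {k : Type} [Field k] [CharP k ℓ] {H : Type} [CommRing H]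

/-- the mod-`ℓ` cyclotomic character with values in `kˣ`. -/
def cycloK (k : Type) [Field k] [CharP k ℓ] : GQ →* kˣ :=
  (Units.map ((ZMod.castHom (dvd_refl ℓ) k : ZMod ℓ →+* k) : ZMod ℓ →* k)).comp (cycloM ℓ)

/-- the nebentypus part `θ ∘ dia ∘ cycloM M`. -/
def nebK (dia : (ZMod M)ˣ →* H) (θ : H →+* k) : GQ →* kˣ :=
  ((Units.map (θ : H →* k)).comp dia.toHomUnits).comp (cycloM M)

/-- **the determinant character** of the mod-`ℓ` representation attached to `θ`. -/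
def detK (dia : (ZMod M)ˣ →* H) (θ : H →+* k) : GQ →* kˣ :=
  cycloK ℓ k * nebK M dia θ

theorem coe_cycloK (σ : GQ) :
    ((cycloK ℓ k σ : kˣ) : k) =
      (ZMod.castHom (dvd_refl ℓ) k : ZMod ℓ →+* k) ((cycloM ℓ σ : (ZMod ℓ)ˣ) : ZMod ℓ) := rfl

theorem coe_nebK (dia : (ZMod M)ˣ →* H) (θ : H →+* k) (σ : GQ) :
    ((nebK M dia θ σ : kˣ) : k) = θ (dia (cycloM M σ)) := rfl

theorem coe_detK (dia : (ZMod M)ˣ →* H) (θ : H →+* k) (σ : GQ) :
    ((detK ℓ M dia θ σ : kˣ) : k) =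
      (ZMod.castHom (dvd_refl ℓ) k : ZMod ℓ →+* k) ((cycloM ℓ σ : (ZMod ℓ)ˣ) : ZMod ℓ) *
        θ (dia (cycloM M σ)) := by
  rw [detK, MonoidHom.mul_apply, Units.val_mul, coe_cycloK, coe_nebK]

theorem detK_factorsThroughFiniteLevel (dia : (ZMod M)ˣ →* H) (θ : H →+* k) :
    GaloisFactorsThroughFiniteLevel (detK ℓ M dia θ) :=
  factorsThrough_mul
    (factorsThrough_comp (cycloM_factorsThroughFiniteLevel ℓ) _)
    (factorsThrough_comp (cycloM_factorsThroughFiniteLevel M) _)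

theorem detK_complexConjugation (dia : (ZMod M)ˣ →* H) (hdia : dia (-1) = 1) (θ : H →+* k) :
    ((detK ℓ M dia θ complexConjugation : kˣ) : k) = -1 := by
  rw [coe_detK, cycloM_complexConjugation, cycloM_complexConjugation, hdia, map_one, mul_one,
    Units.val_neg, Units.val_one, map_neg, map_one]

theorem detK_of_isFrobeniusAt (dia : (ZMod M)ˣ →* H) (θ : H →+* k) {p : ℕ} (hp : p.Prime)
    (hpM : ¬ p ∣ M) (hpℓ : p ≠ ℓ) (A : ValuationSubring Qb) (hA : A.LiesOverPrime p) {σ : GQ}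
    (hσ : A.IsFrobeniusAt σ p) :
    ((detK ℓ M dia θ σ : kˣ) : k) =
      (p : k) * θ (dia (ZMod.unitOfCoprime p ((Nat.Prime.coprime_iff_not_dvd hp).mpr hpM))) := by
  have hpℓ' : ¬ p ∣ ℓ := fun h => hpℓ ((Nat.prime_dvd_prime_iff_eq hp hℓ.out).mp h)
  rw [coe_detK, cycloM_of_isFrobeniusAt ℓ hp hpℓ' A hA hσ, cycloM_of_isFrobeniusAt' M hp hpM A hA hσ,
    map_natCast]

theorem detK_of_mem_inertia (dia : (ZMod M)ˣ →* H) (θ : H →+* k) {p : ℕ} (hp : p.Prime)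
    (hpM : ¬ p ∣ M) (hpℓ : p ≠ ℓ) (A : ValuationSubring Qb) (hA : A.LiesOverPrime p) {τ : GQ}
    (hτ : τ ∈ A.inertiaSubgroupIn ℚ) : detK ℓ M dia θ τ = 1 := by
  have hpℓ' : ¬ p ∣ ℓ := fun h => hpℓ ((Nat.prime_dvd_prime_iff_eq hp hℓ.out).mp h)
  rw [detK, MonoidHom.mul_apply, cycloK, nebK, MonoidHom.comp_apply, MonoidHom.comp_apply,
    cycloM_of_mem_inertia ℓ hp hpℓ' A hA hτ, cycloM_of_mem_inertia M hp hpM A hA hτ, map_one,
    map_one, mul_one]

end Det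

/-! ### GEO-MAIN skeleton -/

section Main

variable {ℓ : ℕ} [hℓ : Fact ℓ.Prime] {M : ℕ} [NeZero M]
variable {k : Type} [Field k] [CharP k ℓ] [Algebra ℤ_[ℓ] k]
variable {TJ : Type} [AddCommGroup TJ] [Module ℤ_[ℓ] TJ] [Module.Finite ℤ_[ℓ] TJ]
variable {H : Type} [CommRing H]

/-- the constant-term operator `p ⟨p⟩` (zero when `p` is not prime to `M`). -/
def dpOf (dia : (ZMod M)ˣ →* H) (p : ℕ) : H :=
  if h : Nat.Coprime p M then (p : H) * dia (ZMod.unitOfCoprime p h) else 0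

omit [NeZero M] in
theorem dpOf_eq (dia : (ZMod M)ˣ →* H) {p : ℕ} (h : Nat.Coprime p M) :
    dpOf dia p = (p : H) * dia (ZMod.unitOfCoprime p h) := dif_pos h

/-- **GEO-MAIN skeleton.** -/
theorem exists_residualRep_of_tate (hℓ2 : ℓ ≠ 2)
    (ρ : GQ →* Module.End ℤ_[ℓ] TJ) (t : H →+* Module.End ℤ_[ℓ] TJ)
    (hcomm : ∀ g h, Commute (ρ g) (t h))
    (hcont : ∃ L : IntermediateField ℚ Qb, FiniteDimensional ℚ L ∧
      ∀ σ : GQ, (∀ a ∈ L, σ a = a) → ∀ x : TJ, ∃ y : TJ, ρ σ x - x = (ℓ : ℤ_[ℓ]) • y)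
    (tp : ℕ → H) (dia : (ZMod M)ˣ →* H) (hdia : dia (-1) = 1)
    (hunr : ∀ p : ℕ, p.Prime → ¬ p ∣ M → p ≠ ℓ → ∀ A : ValuationSubring Qb, A.LiesOverPrime p →
      ∀ τ ∈ A.inertiaSubgroupIn ℚ, ρ τ = 1)
    (hES : ∀ (p : ℕ) (hp : p.Prime) (hpM : ¬ p ∣ M), p ≠ ℓ → ∀ A : ValuationSubring Qb,
      A.LiesOverPrime p → ∀ σ : GQ, A.IsFrobeniusAt σ p →
        ρ σ * ρ σ - t (tp p) * ρ σ +
          (p : ℤ_[ℓ]) • t (dia (ZMod.unitOfCoprime p
            ((Nat.Prime.coprime_iff_not_dvd hp).mpr hpM))) = 0)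
    (θ : H →+* k)
    (heig : ∃ w : k ⊗[ℤ_[ℓ]] TJ, w ≠ 0 ∧ ∀ h, (t h).baseChange k w = θ h • w) :
    ∃ r : ResidualGaloisRep k, ∀ (p : ℕ) (hp : p.Prime) (hpM : ¬ p ∣ M), p ≠ ℓ →
      r.IsUnramifiedAt p ∧
      ∀ A : ValuationSubring Qb, A.LiesOverPrime p → ∀ σ : GQ, A.IsFrobeniusAt σ p →
        LinearMap.charpoly (r.ρ σ) = X ^ 2 - C (θ (tp p)) * X +
          C ((p : k) * θ (dia (ZMod.unitOfCoprime p
            ((Nat.Prime.coprime_iff_not_dvd hp).mpr hpM)))) := by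
  classical
  have hM0 : M ≠ 0 := NeZero.ne M
  have hℓ0 : ℓ ≠ 0 := hℓ.out.ne_zero
  -- `2 ≠ 0` in `k`
  have h2 : (2 : k) ≠ 0 := by
    intro h
    have h' : ((2 : ℕ) : k) = 0 := by exact_mod_cast h
    rw [CharP.cast_eq_zero_iff k ℓ] at h'
    exact hℓ2 ((Nat.prime_dvd_prime_iff_eq hℓ.out Nat.prime_two).mp h')
  have hℓk : algebraMap ℤ_[ℓ] k (ℓ : ℤ_[ℓ]) = 0 := by
    rw [map_natCast]
    exact CharP.cast_eq_zero k ℓ
  -- the base-changed actions
  let bc : Module.End ℤ_[ℓ] TJ →ₐ[ℤ_[ℓ]] Module.End k (k ⊗[ℤ_[ℓ]] TJ) :=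
    Module.End.baseChangeHom ℤ_[ℓ] k TJ
  have hbc : ∀ f : Module.End ℤ_[ℓ] TJ, bc f = f.baseChange k := fun _ => rfl
  let ρW : GQ →* Module.End k (k ⊗[ℤ_[ℓ]] TJ) := (bc : _ →* _).comp ρ
  let θW : H →+* Module.End k (k ⊗[ℤ_[ℓ]] TJ) := (bc : _ →+* _).comp t
  have hρW : ∀ g, ρW g = bc (ρ g) := fun _ => rfl
  have hθW : ∀ h, θW h = bc (t h) := fun _ => rfl
  have hcommW : ∀ g h, Commute (ρW g) (θW h) := by
    intro g h
    change ρW g * θW h = θW h * ρW g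
    rw [hρW, hθW, ← map_mul, ← map_mul, (hcomm g h).eq]
  have heigW : ∃ v : k ⊗[ℤ_[ℓ]] TJ, v ≠ 0 ∧ ∀ h, θW h v = θ h • v := heig
  -- finite level
  have hρlevel : GaloisFactorsThroughFiniteLevel ρW := by
    obtain ⟨L, hL, h⟩ := hcont
    exact ⟨L, hL, fun σ hσ =>
      baseChange_eq_one_of_congr (ρ σ) (ℓ : ℤ_[ℓ]) hℓk (h σ hσ)⟩
  -- the bad primes
  let S : Finset ℕ := (M * ℓ).primeFactors
  have hS : ∀ p : ℕ, p.Prime → (p ∉ S ↔ ¬ p ∣ M ∧ p ≠ ℓ) := by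
    intro p hp
    rw [Nat.mem_primeFactors, not_and_or, not_and_or]
    constructor
    · rintro (h | h | h)
      · exact absurd hp h
      · refine ⟨fun hd => h (Dvd.dvd.mul_right hd ℓ), ?_⟩
        rintro rfl
        exact h (Dvd.intro_left M rfl)
      · exact absurd (Nat.mul_ne_zero hM0 hℓ0) h
    · rintro ⟨h1, h2'⟩
      refine Or.inr (Or.inl fun hd => ?_)
      rcases (Nat.Prime.dvd_mul hp).mp hd with hd | hd
      · exact h1 hd
      · exact h2' ((Nat.prime_dvd_prime_iff_eq hp hℓ.out).mp hd)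
  obtain ⟨r, hr⟩ := exists_residualRep h2 ρW θW hcommW θ heigW hρlevel (detK ℓ M dia θ)
    (detK_factorsThroughFiniteLevel ℓ M dia θ) (detK_complexConjugation ℓ M dia hdia θ)
    S tp (dpOf dia)
    (by
      intro p hp hpS A hA σ hσ
      obtain ⟨hpM, hpℓ⟩ := (hS p hp).mp hpS
      have hcop : Nat.Coprime p M := (Nat.Prime.coprime_iff_not_dvd hp).mpr hpM
      constructor
      · have h := congrArg bc (hES p hp hpM hpℓ A hA σ hσ)
        rw [map_zero, map_add, map_sub, map_mul, map_mul] at h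
        rw [hρW, hθW, hθW, dpOf_eq dia hcop, map_mul, map_natCast, ← h]
        congr 1
        rw [Nat.cast_smul_eq_nsmul, nsmul_eq_mul, map_mul, map_natCast]
      · rw [detK_of_isFrobeniusAt ℓ M dia θ hp hpM hpℓ A hA hσ, dpOf_eq dia hcop, map_mul,
          map_natCast])
    (by
      intro p hp hpS A hA τ hτ
      obtain ⟨hpM, hpℓ⟩ := (hS p hp).mp hpS
      refine ⟨?_, detK_of_mem_inertia ℓ M dia θ hp hpM hpℓ A hA hτ⟩
      rw [hρW, hunr p hp hpM hpℓ A hA τ hτ, map_one])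
  refine ⟨r, fun p hp hpM hpℓ => ?_⟩
  have hpS : p ∉ S := (hS p hp).mpr ⟨hpM, hpℓ⟩
  have hcop : Nat.Coprime p M := (Nat.Prime.coprime_iff_not_dvd hp).mpr hpM
  obtain ⟨h1, h2'⟩ := hr p hp hpS
  refine ⟨h1, fun A hA σ hσ => ?_⟩
  rw [h2' A hA σ hσ, dpOf_eq dia hcop, map_mul, map_natCast]

/-- **GEO-MAIN skeleton, lattice form**: the eigenvector comes from a faithful action of `H` on a
finitely generated `ℤ`-lattice `Λ` whose base change to `ℤ_[ℓ]` is the Tate module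
(`DS/Geo/EigenModL.exists_eigenvector_of_isBaseChange`). -/
theorem exists_residualRep_of_tate_lattice (hℓ2 : ℓ ≠ 2)
    (ρ : GQ →* Module.End ℤ_[ℓ] TJ) (t : H →+* Module.End ℤ_[ℓ] TJ)
    (hcomm : ∀ g h, Commute (ρ g) (t h))
    (hcont : ∃ L : IntermediateField ℚ Qb, FiniteDimensional ℚ L ∧
      ∀ σ : GQ, (∀ a ∈ L, σ a = a) → ∀ x : TJ, ∃ y : TJ, ρ σ x - x = (ℓ : ℤ_[ℓ]) • y)
    (tp : ℕ → H) (dia : (ZMod M)ˣ →* H) (hdia : dia (-1) = 1)
    (hunr : ∀ p : ℕ, p.Prime → ¬ p ∣ M → p ≠ ℓ → ∀ A : ValuationSubring Qb, A.LiesOverPrime p →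
      ∀ τ ∈ A.inertiaSubgroupIn ℚ, ρ τ = 1)
    (hES : ∀ (p : ℕ) (hp : p.Prime) (hpM : ¬ p ∣ M), p ≠ ℓ → ∀ A : ValuationSubring Qb,
      A.LiesOverPrime p → ∀ σ : GQ, A.IsFrobeniusAt σ p →
        ρ σ * ρ σ - t (tp p) * ρ σ +
          (p : ℤ_[ℓ]) • t (dia (ZMod.unitOfCoprime p
            ((Nat.Prime.coprime_iff_not_dvd hp).mpr hpM))) = 0)
    {Λ : Type*} [AddCommGroup Λ] [Module.Finite ℤ Λ] (T : H →+* Module.End ℤ Λ)
    (hT : Function.Injective T) (ι₀ : Λ →ₗ[ℤ] TJ) (hι₀ : IsBaseChange ℤ_[ℓ] ι₀)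
    (hι₀T : ∀ h x, t h (ι₀ x) = ι₀ (T h x))
    (θ : H →+* k) :
    ∃ r : ResidualGaloisRep k, ∀ (p : ℕ) (hp : p.Prime) (hpM : ¬ p ∣ M), p ≠ ℓ →
      r.IsUnramifiedAt p ∧
      ∀ A : ValuationSubring Qb, A.LiesOverPrime p → ∀ σ : GQ, A.IsFrobeniusAt σ p →
        LinearMap.charpoly (r.ρ σ) = X ^ 2 - C (θ (tp p)) * X +
          C ((p : k) * θ (dia (ZMod.unitOfCoprime p
            ((Nat.Prime.coprime_iff_not_dvd hp).mpr hpM)))) :=
  exists_residualRep_of_tate hℓ2 ρ t hcomm hcont tp dia hdia hunr hES θ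
    (Fermat.Agent.DS.Geo.EigenModL.exists_eigenvector_of_isBaseChange T θ hT ι₀ hι₀
      (fun h => t h) hι₀T)

end Main

/-- the `ℤ_[ℓ]`-algebra structure of a field of characteristic `ℓ` (a `def`, not an instance):
`ℤ_[ℓ] → ZMod ℓ → k`. -/
@[reducible] def charAlgebra (ℓ : ℕ) [Fact ℓ.Prime] (k : Type) [Field k] [CharP k ℓ] :
    Algebra ℤ_[ℓ] k :=
  ((ZMod.castHom (dvd_refl ℓ) k : ZMod ℓ →+* k).comp PadicInt.toZMod).toAlgebra

end Fermat.Agent.DS.Geo.GeoMain
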