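/-
DS programme (S48), GEO half (helper93): the contract `DS/G/Top/Contract.HeckeModLReps c'` from
TATE-MODULE DATA for the weight-two Hecke algebra `T2 M` of `Γ₁(M)`.

`TateData M ℓ` lists exactly what the geometry chapters (G-KUM, G-HECKE, G-ESRED, G-PER) have to
deliver for one level `M` and one prime `ℓ`:
* a finite `ℤ_[ℓ]`-module `TJ` (the Tate module of `J₁(M)`) with commuting actions of `G_ℚ` and of
  `T2 M`;
* `cont`: trivial modulo `ℓ` on an open subgroup; `unr`: unramified at `p ∤ M ℓ`;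
* `es`: `ρ(σ)² - t(T_p) ρ(σ) + p t(⟨p⟩) = 0` for every Frobenius lift `σ` at `p ∤ M ℓ`;
* `eigen`: every ring homomorphism `θ : T2 M →+* k` to a field of characteristic `ℓ` occurs on
  `k ⊗ TJ` (constructor `TateData.ofLattice`: from a faithful `T2 M`-lattice `Λ` with
  `ℤ_[ℓ] ⊗ Λ ≅ TJ` Hecke-equivariantly, via `DS/Geo/EigenModL`).
`heckeModLReps_of_tateData` is then `DS/Geo/GeoMain.exists_residualRep_of_tate`.
-/
import Mathlib
import Fermat.Agent.DS.G.Top.Contract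
import Fermat.Agent.DS.Geo.GeoMain

set_option autoImplicit false

open Matrix.SpecialLinearGroup UpperHalfPlane CongruenceSubgroup ModularForm Polynomial
open scoped MatrixGroups ModularForm OnePoint Manifold TensorProduct

noncomputable section

namespace Fermat.Agent.DS.Geo.ContractOfTate

open Fermat.Agent.DS.Hecke1.Cosets Fermat.Agent.DS.Hecke1.Diamond Fermat.Agent.DS.Hecke1.HeckeT1
open Fermat.Agent.DS.Hecke1.Algebra Fermat.Agent.DS.G.Top.Contract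
open Fermat.Agent.DS.Geo.GeoMain

local notation "Qb" => AlgebraicClosure ℚ
local notation "GQ" => (AlgebraicClosure ℚ ≃ₐ[ℚ] AlgebraicClosure ℚ)

/-! ### `⟨-1⟩ = 1` in even weight -/

section NegOne

variable {M : ℕ}

theorem slash_neg_one_even (f : ℍ → ℂ) {k : ℤ} (hk : Even k) : f ∣[k] (-1 : SL(2, ℤ)) = f := by
  ext τ
  rw [ModularForm.SL_slash_apply]
  have h1 : (-1 : SL(2, ℤ)) • τ = τ := by
    rw [ModularGroup.SL_neg_smul, one_smul]
  have h2 : denom ((-1 : SL(2, ℤ)) : GL (Fin 2) ℝ) τ = -1 := by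
    simp [denom]
  rw [h1, h2, Even.neg_one_zpow (Even.neg hk), mul_one]

theorem neg_one_mem_Gamma0 : (-1 : SL(2, ℤ)) ∈ Gamma0 M := by
  rw [Gamma0_mem]
  simp

theorem lr_neg_one : lr M (-1 : SL(2, ℤ)) = -1 := by
  simp [lr]

variable [NeZero M]

local notation "Γ1M" => ((Gamma1 M : Subgroup SL(2, ℤ)) : Subgroup (GL (Fin 2) ℝ))

theorem diamond_neg_one_even {k : ℤ} (hk : Even k) :
    (diamond (-1) : CuspForm Γ1M k →ₗ[ℂ] _) = LinearMap.id := by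
  rw [diamond_eq_slashCusp (-1) neg_one_mem_Gamma0 (by rw [lr_neg_one]; simp)]
  ext f τ
  show ((f : ℍ → ℂ) ∣[k] (-1 : SL(2, ℤ))) τ = f τ
  rw [slash_neg_one_even _ hk]

end NegOne

/-! ### the diamond homomorphism and the `T_p` family of `T2 M` -/

section Hecke

variable (M : ℕ) [NeZero M]

/-- `d ↦ ⟨d⟩` as a monoid homomorphism into the (commutative) Hecke algebra. -/
def diaHom (k : ℤ) : (ZMod M)ˣ →* heckeAlgebra1 M k where
  toFun d := heckeAlgebra1.dia d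
  map_one' := Subtype.ext (by
    rw [heckeAlgebra1.coe_dia, diamond_one]
    rfl)
  map_mul' d e := Subtype.ext (by
    rw [Subalgebra.coe_mul, heckeAlgebra1.coe_dia, heckeAlgebra1.coe_dia, heckeAlgebra1.coe_dia,
      diamond_mul, Module.End.mul_eq_comp, diamond_comm])

@[simp] theorem diaHom_apply (k : ℤ) (d : (ZMod M)ˣ) : diaHom M k d = heckeAlgebra1.dia d := rfl

theorem diaHom_neg_one {k : ℤ} (hk : Even k) : diaHom M k (-1) = 1 :=
  Subtype.ext (by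
    rw [diaHom_apply, heckeAlgebra1.coe_dia, diamond_neg_one_even hk]
    rfl)

/-- `p ↦ T_p` (zero unless `p` is a prime not dividing `M`). -/
def tpOf (k : ℤ) (p : ℕ) : heckeAlgebra1 M k :=
  if h : p.Prime ∧ ¬ p ∣ M then heckeAlgebra1.T h.1 h.2 else 0

theorem tpOf_eq (k : ℤ) {p : ℕ} (hp : p.Prime) (hpM : ¬ p ∣ M) :
    tpOf M k p = heckeAlgebra1.T hp hpM := dif_pos ⟨hp, hpM⟩

end Hecke

/-! ### the Tate-module data -/

/-- What the geometry has to deliver for one level `M` and one prime `ℓ`. -/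
structure TateData (M : ℕ) [NeZero M] (ℓ : ℕ) [Fact ℓ.Prime] : Type 1 where
  /-- the Tate module -/
  TJ : Type
  [instAddCommGroup : AddCommGroup TJ]
  [instModule : Module ℤ_[ℓ] TJ]
  [instFinite : Module.Finite ℤ_[ℓ] TJ]
  /-- the Galois action -/
  ρ : GQ →* Module.End ℤ_[ℓ] TJ
  /-- the Hecke action -/
  t : T2 M →+* Module.End ℤ_[ℓ] TJ
  comm : ∀ g h, Commute (ρ g) (t h)
  cont : ∃ L : IntermediateField ℚ Qb, FiniteDimensional ℚ L ∧
    ∀ σ : GQ, (∀ a ∈ L, σ a = a) → ∀ x : TJ, ∃ y : TJ, ρ σ x - x = (ℓ : ℤ_[ℓ]) • y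
  unr : ∀ p : ℕ, p.Prime → ¬ p ∣ M → p ≠ ℓ → ∀ A : ValuationSubring Qb, A.LiesOverPrime p →
    ∀ τ ∈ A.inertiaSubgroupIn ℚ, ρ τ = 1
  es : ∀ (p : ℕ) (hp : p.Prime) (hpM : ¬ p ∣ M), p ≠ ℓ → ∀ A : ValuationSubring Qb,
    A.LiesOverPrime p → ∀ σ : GQ, A.IsFrobeniusAt σ p →
      ρ σ * ρ σ - t (heckeAlgebra1.T hp hpM) * ρ σ +
        (p : ℤ_[ℓ]) • t (heckeAlgebra1.dia (unitP hp hpM)) = 0
  eigen : ∀ (k : Type) [Field k] [CharP k ℓ] [Algebra ℤ_[ℓ] k] (θ : T2 M →+* k),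
    ∃ w : k ⊗[ℤ_[ℓ]] TJ, w ≠ 0 ∧ ∀ h, (t h).baseChange k w = θ h • w

attribute [instance] TateData.instAddCommGroup TateData.instModule TateData.instFinite

/-- Constructor: the `eigen` field from a faithful action of `T2 M` on a finitely generated
`ℤ`-module `Λ` whose base change to `ℤ_[ℓ]` is the Tate module, Hecke-equivariantly
(`DS/Geo/EigenModL.exists_eigenvector_of_isBaseChange`). -/
def TateData.ofLattice {M : ℕ} [NeZero M] {ℓ : ℕ} [Fact ℓ.Prime]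
    (TJ : Type) [AddCommGroup TJ] [Module ℤ_[ℓ] TJ] [Module.Finite ℤ_[ℓ] TJ]
    (ρ : GQ →* Module.End ℤ_[ℓ] TJ) (t : T2 M →+* Module.End ℤ_[ℓ] TJ)
    (comm : ∀ g h, Commute (ρ g) (t h))
    (cont : ∃ L : IntermediateField ℚ Qb, FiniteDimensional ℚ L ∧
      ∀ σ : GQ, (∀ a ∈ L, σ a = a) → ∀ x : TJ, ∃ y : TJ, ρ σ x - x = (ℓ : ℤ_[ℓ]) • y)
    (unr : ∀ p : ℕ, p.Prime → ¬ p ∣ M → p ≠ ℓ → ∀ A : ValuationSubring Qb, A.LiesOverPrime p →
      ∀ τ ∈ A.inertiaSubgroupIn ℚ, ρ τ = 1)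
    (es : ∀ (p : ℕ) (hp : p.Prime) (hpM : ¬ p ∣ M), p ≠ ℓ → ∀ A : ValuationSubring Qb,
      A.LiesOverPrime p → ∀ σ : GQ, A.IsFrobeniusAt σ p →
        ρ σ * ρ σ - t (heckeAlgebra1.T hp hpM) * ρ σ +
          (p : ℤ_[ℓ]) • t (heckeAlgebra1.dia (unitP hp hpM)) = 0)
    {Λ : Type*} [AddCommGroup Λ] [Module.Finite ℤ Λ] (T : T2 M →+* Module.End ℤ Λ)
    (hT : Function.Injective T) (ι₀ : Λ →ₗ[ℤ] TJ) (hι₀ : IsBaseChange ℤ_[ℓ] ι₀)
    (hι₀T : ∀ h x, t h (ι₀ x) = ι₀ (T h x)) : TateData M ℓ where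
  TJ := TJ
  ρ := ρ
  t := t
  comm := comm
  cont := cont
  unr := unr
  es := es
  eigen := fun _ _ _ _ θ =>
    Fermat.Agent.DS.Geo.EigenModL.exists_eigenvector_of_isBaseChange T θ hT ι₀ hι₀
      (fun h => t h) hι₀T

section Main

variable {M : ℕ} [NeZero M] {ℓ : ℕ} [hℓ : Fact ℓ.Prime]

/-- the representation attached to `θ`, from Tate-module data. -/
theorem exists_rep_of_tateData (D : TateData M ℓ) (hℓ2 : ℓ ≠ 2)
    (k : Type) [Field k] [CharP k ℓ] (θ : T2 M →+* k) :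
    ∃ ρ : ResidualGaloisRep k, ∀ (p : ℕ) (hp : p.Prime) (hpM : ¬ p ∣ M), p ≠ ℓ →
      ρ.IsUnramifiedAt p ∧
      ∀ A : ValuationSubring Qb, A.LiesOverPrime p → ∀ σ : GQ, A.IsFrobeniusAt σ p →
        LinearMap.charpoly (ρ.ρ σ) =
          X ^ 2 - C (θ (heckeAlgebra1.T hp hpM)) * X +
            C ((p : k) * θ (heckeAlgebra1.dia (unitP hp hpM))) := by
  let _ : Algebra ℤ_[ℓ] k := charAlgebra ℓ k
  obtain ⟨r, hr⟩ := exists_residualRep_of_tate (M := M) hℓ2 D.ρ D.t D.comm D.cont (tpOf M 2)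
    (diaHom M 2) (diaHom_neg_one M even_two) D.unr
    (by
      intro p hp hpM hpℓ A hA σ hσ
      rw [tpOf_eq M 2 hp hpM]
      exact D.es p hp hpM hpℓ A hA σ hσ)
    θ (D.eigen k θ)
  refine ⟨r, fun p hp hpM hpℓ => ?_⟩
  obtain ⟨h1, h2⟩ := hr p hp hpM hpℓ
  refine ⟨h1, fun A hA σ hσ => ?_⟩
  rw [h2 A hA σ hσ, tpOf_eq M 2 hp hpM]
  rfl

/-- **the contract from Tate-module data at every level divisible by `c'`.** -/
theorem heckeModLReps_of_tateData (c' : ℕ)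
    (h : ∀ (M : ℕ) [NeZero M], c' ∣ M → ∀ (ℓ : ℕ) [Fact ℓ.Prime], ℓ ≠ 2 →
      Nonempty (TateData M ℓ)) :
    HeckeModLReps c' := by
  intro M _ hcM ℓ hℓ hℓ2 k _ _ θ
  have : Fact ℓ.Prime := ⟨hℓ⟩
  obtain ⟨D⟩ := h M hcM ℓ hℓ2
  exact exists_rep_of_tateData D hℓ2 k θ

end Main

end Fermat.Agent.DS.Geo.ContractOfTate
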