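/-
DS programme (S48), GEO half (helper93): the mod-`ℓ` back end in GENERATOR + EIGENVECTOR form.

No Hecke RING is needed: only the operators `bT hp hpM` (`p ∤ M` prime) and `bD d` (`d ∈ (ℤ/M)ˣ`)
on the Tate module, commuting with the Galois action (NOT necessarily with each other), scalars
`aT hp hpM : k`, a character `aD : (ℤ/M)ˣ →* k` with `aD (-1) = 1`, and a nonzero simultaneous
eigenvector in `k ⊗ TJ`.  Output: `r : ResidualGaloisRep k`, unramified at `p ∤ M ℓ`, with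
`charpoly (r.ρ Frob_p) = X² - aT_p X + p aD(p)`.

Implementation: `DS/Geo/ResidualOfEigen.exists_residualRep` only needs a SEMIRING `H` acting on `W`;
we feed it the free algebra on the generators.
-/
import Mathlib
import Fermat.Agent.DS.Geo.GeoMain
import Fermat.Agent.DS.Hecke1.HeckeT1

set_option autoImplicit false
set_option linter.unusedSectionVars false

open Polynomial TensorProduct

noncomputable section

namespace Fermat.Agent.DS.Geo.GeoMainGen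

open Fermat.Agent.DS.Geo.ResidualOfEigen Fermat.Agent.DS.Geo.CycloModM
open Fermat.Agent.DS.Geo.GeoMain Fermat.Agent.DS.Hecke1.HeckeT1

local notation "Qb" => AlgebraicClosure ℚ
local notation "GQ" => (AlgebraicClosure ℚ ≃ₐ[ℚ] AlgebraicClosure ℚ)

/-! ### a family of operators with a common eigenvector, as an action of the free algebra -/

section Free

variable {k : Type*} [Field k] {W : Type*} [AddCommGroup W] [Module k W] {ι : Type*}
  (op : ι → Module.End k W) (val : ι → k)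

/-- the action of the free ring on the generators. -/
def freeAct : FreeAlgebra ℤ ι →+* Module.End k W :=
  (FreeAlgebra.lift ℤ op : FreeAlgebra ℤ ι →ₐ[ℤ] Module.End k W)

/-- the character of the free ring with the prescribed values. -/
def freeChar : FreeAlgebra ℤ ι →+* k :=
  (FreeAlgebra.lift ℤ val : FreeAlgebra ℤ ι →ₐ[ℤ] k)

@[simp] theorem freeAct_ι (i : ι) : freeAct op (FreeAlgebra.ι ℤ i) = op i := by
  unfold freeAct
  simp

@[simp] theorem freeChar_ι (i : ι) : freeChar val (FreeAlgebra.ι ℤ i) = val i := by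
  unfold freeChar
  simp

theorem freeAct_eigen {v : W} (hv : ∀ i, op i v = val i • v) (t : FreeAlgebra ℤ ι) :
    freeAct op t v = freeChar val t • v := by
  induction t using FreeAlgebra.induction with
  | grade0 n =>
    rw [show (algebraMap ℤ (FreeAlgebra ℤ ι) n) = ((n : ℤ) : FreeAlgebra ℤ ι) from rfl,
      map_intCast, map_intCast, Module.End.intCast_apply, Int.cast_smul_eq_zsmul]
  | grade1 i => rw [freeAct_ι, freeChar_ι, hv]
  | mul a b ha hb =>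
    rw [map_mul, map_mul, Module.End.mul_apply, hb, map_smul, ha, smul_smul, mul_comm]
  | add a b ha hb => rw [map_add, map_add, LinearMap.add_apply, ha, hb, add_smul]

theorem freeAct_commute {f : Module.End k W} (hf : ∀ i, Commute f (op i))
    (t : FreeAlgebra ℤ ι) : Commute f (freeAct op t) := by
  induction t using FreeAlgebra.induction with
  | grade0 n =>
    rw [show (algebraMap ℤ (FreeAlgebra ℤ ι) n) = ((n : ℤ) : FreeAlgebra ℤ ι) from rfl,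
      map_intCast]
    exact (Int.cast_commute n f).symm
  | grade1 i => rw [freeAct_ι]; exact hf i
  | mul a b ha hb => rw [map_mul]; exact ha.mul_right hb
  | add a b ha hb => rw [map_add]; exact ha.add_right hb

end Free

/-! ### transport along a base change -/

section Transport

variable {A : Type*} [CommRing A] {N : Type*} [AddCommGroup N] [Module A N]
  {k : Type*} [Field k] [Algebra A k] {Lam : Type*} [AddCommGroup Lam]

/-- `k ⊗_ℤ Lam ≃ k ⊗_A N` for a base change `ι₀ : Lam → N` along `ℤ → A`, compatible with every pair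
of endomorphisms intertwined by `ι₀`. -/
theorem exists_equiv_of_isBaseChange (ι₀ : Lam →ₗ[ℤ] N) (hι₀ : IsBaseChange A ι₀) :
    ∃ E : k ⊗[ℤ] Lam ≃ₗ[k] k ⊗[A] N, ∀ (f : Module.End ℤ Lam) (g : Module.End A N),
      (∀ x, g (ι₀ x) = ι₀ (f x)) → ∀ v, g.baseChange k (E v) = E (f.baseChange k v) := by
  have hb : IsBaseChange k (((TensorProduct.mk A k N 1).restrictScalars ℤ).comp ι₀) :=
    hι₀.comp (TensorProduct.isBaseChange A N k)
  have hE : ∀ (c : k) (x : Lam), hb.equiv (c ⊗ₜ[ℤ] x) = c ⊗ₜ[A] ι₀ x := by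
    intro c x
    rw [IsBaseChange.equiv_tmul]
    change c • ((1 : k) ⊗ₜ[A] ι₀ x) = _
    rw [TensorProduct.smul_tmul', smul_eq_mul, mul_one]
  refine ⟨hb.equiv, fun f g hfg v => ?_⟩
  induction v with
  | zero => simp
  | add x y hx hy => rw [map_add, map_add, hx, hy, map_add, map_add]
  | tmul c x => rw [hE, LinearMap.baseChange_tmul, LinearMap.baseChange_tmul, hE, hfg]

end Transport

/-! ### the back end in generator + eigenvector form -/

section Main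

variable {ℓ : ℕ} [hℓ : Fact ℓ.Prime] {M : ℕ} [NeZero M]
variable {k : Type} [Field k] [CharP k ℓ] [Algebra ℤ_[ℓ] k]
variable {TJ : Type} [AddCommGroup TJ] [Module ℤ_[ℓ] TJ] [Module.Finite ℤ_[ℓ] TJ]

/-- the index set of the generators: primes `p ∤ M` and units `d ∈ (ℤ/M)ˣ`. -/
abbrev Idx (M : ℕ) : Type := {p : ℕ // p.Prime ∧ ¬ p ∣ M} ⊕ (ZMod M)ˣ

/-- **GEO back end, generator + eigenvector form.** -/
theorem exists_residualRep_of_tate_gen (hℓ2 : ℓ ≠ 2)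
    (ρ : GQ →* Module.End ℤ_[ℓ] TJ)
    (bT : ∀ {p : ℕ}, p.Prime → ¬ p ∣ M → Module.End ℤ_[ℓ] TJ)
    (bD : (ZMod M)ˣ → Module.End ℤ_[ℓ] TJ)
    (commute_T : ∀ (g : GQ) {p : ℕ} (hp : p.Prime) (hpM : ¬ p ∣ M), Commute (ρ g) (bT hp hpM))
    (commute_D : ∀ (g : GQ) (d : (ZMod M)ˣ), Commute (ρ g) (bD d))
    (finiteLevel : ∃ L : IntermediateField ℚ Qb, FiniteDimensional ℚ L ∧
      ∀ σ : GQ, (∀ a ∈ L, σ a = a) → ∀ x : TJ, ∃ y : TJ, ρ σ x - x = (ℓ : ℤ_[ℓ]) • y)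
    (unramified : ∀ q : ℕ, q.Prime → ¬ q ∣ M → q ≠ ℓ →
      ∀ A : ValuationSubring Qb, A.LiesOverPrime q → ∀ τ ∈ A.inertiaSubgroupIn ℚ, ρ τ = 1)
    (frobenius : ∀ {p : ℕ} (hp : p.Prime) (hpM : ¬ p ∣ M), p ≠ ℓ →
      ∀ A : ValuationSubring Qb, A.LiesOverPrime p → ∀ σ : GQ, A.IsFrobeniusAt σ p →
        ρ σ * ρ σ - bT hp hpM * ρ σ + (p : ℤ_[ℓ]) • bD (unitP hp hpM) = 0)
    (aT : ∀ {p : ℕ}, p.Prime → ¬ p ∣ M → k) (aD : (ZMod M)ˣ →* k) (haD : aD (-1) = 1)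
    (heig : ∃ w : k ⊗[ℤ_[ℓ]] TJ, w ≠ 0 ∧
      (∀ {p : ℕ} (hp : p.Prime) (hpM : ¬ p ∣ M), (bT hp hpM).baseChange k w = aT hp hpM • w) ∧
      (∀ d : (ZMod M)ˣ, (bD d).baseChange k w = aD d • w)) :
    ∃ r : ResidualGaloisRep k, ∀ (p : ℕ) (hp : p.Prime) (hpM : ¬ p ∣ M), p ≠ ℓ →
      r.IsUnramifiedAt p ∧
      ∀ A : ValuationSubring Qb, A.LiesOverPrime p → ∀ σ : GQ, A.IsFrobeniusAt σ p →
        LinearMap.charpoly (r.ρ σ) =
          X ^ 2 - C (aT hp hpM) * X + C ((p : k) * aD (unitP hp hpM)) := by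
  classical
  have hM0 : M ≠ 0 := NeZero.ne M
  have hℓ0 : ℓ ≠ 0 := hℓ.out.ne_zero
  have h2 : (2 : k) ≠ 0 := by
    intro h
    have h' : ((2 : ℕ) : k) = 0 := by exact_mod_cast h
    rw [CharP.cast_eq_zero_iff k ℓ] at h'
    exact hℓ2 ((Nat.prime_dvd_prime_iff_eq hℓ.out Nat.prime_two).mp h')
  have hℓk : algebraMap ℤ_[ℓ] k (ℓ : ℤ_[ℓ]) = 0 := by
    rw [map_natCast]
    exact CharP.cast_eq_zero k ℓ
  -- base change
  let bc : Module.End ℤ_[ℓ] TJ →ₐ[ℤ_[ℓ]] Module.End k (k ⊗[ℤ_[ℓ]] TJ) :=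
    Module.End.baseChangeHom ℤ_[ℓ] k TJ
  have hbc : ∀ f : Module.End ℤ_[ℓ] TJ, bc f = f.baseChange k := fun _ => rfl
  let ρW : GQ →* Module.End k (k ⊗[ℤ_[ℓ]] TJ) := (bc : _ →* _).comp ρ
  have hρW : ∀ g, ρW g = bc (ρ g) := fun _ => rfl
  -- the generators
  let op : Idx M → Module.End k (k ⊗[ℤ_[ℓ]] TJ) :=
    Sum.elim (fun p => bc (bT p.2.1 p.2.2)) (fun d => bc (bD d))
  let val : Idx M → k := Sum.elim (fun p => aT p.2.1 p.2.2) (fun d => aD d)
  let θW : FreeAlgebra ℤ (Idx M) →+* Module.End k (k ⊗[ℤ_[ℓ]] TJ) := freeAct op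
  let χ : FreeAlgebra ℤ (Idx M) →+* k := freeChar val
  let gT : ∀ {p : ℕ}, p.Prime → ¬ p ∣ M → FreeAlgebra ℤ (Idx M) :=
    fun {p} hp hpM => FreeAlgebra.ι ℤ (Sum.inl ⟨p, hp, hpM⟩)
  let gD : (ZMod M)ˣ → FreeAlgebra ℤ (Idx M) := fun d => FreeAlgebra.ι ℤ (Sum.inr d)
  have hθT : ∀ {p : ℕ} (hp : p.Prime) (hpM : ¬ p ∣ M), θW (gT hp hpM) = bc (bT hp hpM) :=
    fun hp hpM => freeAct_ι op _
  have hθD : ∀ d, θW (gD d) = bc (bD d) := fun d => freeAct_ι op _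
  have hχT : ∀ {p : ℕ} (hp : p.Prime) (hpM : ¬ p ∣ M), χ (gT hp hpM) = aT hp hpM :=
    fun hp hpM => freeChar_ι val _
  have hχD : ∀ d, χ (gD d) = aD d := fun d => freeChar_ι val _
  have hcommW : ∀ g t, Commute (ρW g) (θW t) := by
    intro g t
    refine freeAct_commute op (fun i => ?_) t
    rcases i with p | d
    · change ρW g * bc (bT p.2.1 p.2.2) = bc (bT p.2.1 p.2.2) * ρW g
      rw [hρW, ← map_mul, ← map_mul, (commute_T g p.2.1 p.2.2).eq]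
    · change ρW g * bc (bD d) = bc (bD d) * ρW g
      rw [hρW, ← map_mul, ← map_mul, (commute_D g d).eq]
  have heigW : ∃ v : k ⊗[ℤ_[ℓ]] TJ, v ≠ 0 ∧ ∀ t, θW t v = χ t • v := by
    obtain ⟨w, hw0, hwT, hwD⟩ := heig
    refine ⟨w, hw0, freeAct_eigen op val (fun i => ?_)⟩
    rcases i with p | d
    · exact hwT p.2.1 p.2.2
    · exact hwD d
  have hρlevel : GaloisFactorsThroughFiniteLevel ρW := by
    obtain ⟨L, hL, h⟩ := finiteLevel
    exact ⟨L, hL, fun σ hσ =>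
      baseChange_eq_one_of_congr (ρ σ) (ℓ : ℤ_[ℓ]) hℓk (h σ hσ)⟩
  -- the determinant character: `dia := aD`, `θ := id`
  let dK : GQ →* kˣ := detK ℓ M aD (RingHom.id k)
  -- the bad primes
  let S : Finset ℕ := (M * ℓ).primeFactors
  have hS : ∀ p : ℕ, p.Prime → (p ∉ S ↔ ¬ p ∣ M ∧ p ≠ ℓ) := by
    intro p hp
    rw [Nat.mem_primeFactors, not_and_or, not_and_or]
    constructor
    · rintro (h | h | h)
      · exact absurd hp h
      · refine ⟨fun hd => h (Dvd.dvd.mul_right hd ℓ), ?_⟩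
        rintro rfl
        exact h (Dvd.intro_left M rfl)
      · exact absurd (Nat.mul_ne_zero hM0 hℓ0) h
    · rintro ⟨h1, h2'⟩
      refine Or.inr (Or.inl fun hd => ?_)
      rcases (Nat.Prime.dvd_mul hp).mp hd with hd | hd
      · exact h1 hd
      · exact h2' ((Nat.prime_dvd_prime_iff_eq hp hℓ.out).mp hd)
  -- the families `tp`, `dp`
  let tp : ℕ → FreeAlgebra ℤ (Idx M) := fun p =>
    if h : p.Prime ∧ ¬ p ∣ M then gT h.1 h.2 else 0
  let dp : ℕ → FreeAlgebra ℤ (Idx M) := fun p =>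
    if h : p.Prime ∧ ¬ p ∣ M then (p : FreeAlgebra ℤ (Idx M)) * gD (unitP h.1 h.2) else 0
  have htp : ∀ {p : ℕ} (hp : p.Prime) (hpM : ¬ p ∣ M), tp p = gT hp hpM :=
    fun hp hpM => dif_pos ⟨hp, hpM⟩
  have hdp : ∀ {p : ℕ} (hp : p.Prime) (hpM : ¬ p ∣ M),
      dp p = (p : FreeAlgebra ℤ (Idx M)) * gD (unitP hp hpM) :=
    fun hp hpM => dif_pos ⟨hp, hpM⟩
  obtain ⟨r, hr⟩ := exists_residualRep h2 ρW θW hcommW χ heigW hρlevel dK
    (detK_factorsThroughFiniteLevel ℓ M aD (RingHom.id k))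
    (detK_complexConjugation ℓ M aD haD (RingHom.id k))
    S tp dp
    (by
      intro p hp hpS A hA σ hσ
      obtain ⟨hpM, hpℓ⟩ := (hS p hp).mp hpS
      constructor
      · have h := congrArg bc (frobenius hp hpM hpℓ A hA σ hσ)
        rw [map_zero, map_add, map_sub, map_mul, map_mul] at h
        rw [hρW, htp hp hpM, hdp hp hpM, hθT hp hpM, map_mul, map_natCast, hθD, ← h]
        congr 1
        rw [Nat.cast_smul_eq_nsmul, nsmul_eq_mul, map_mul, map_natCast]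
      · rw [show ((dK σ : kˣ) : k) = (p : k) * (RingHom.id k) (aD (unitP hp hpM)) from
          detK_of_isFrobeniusAt ℓ M aD (RingHom.id k) hp hpM hpℓ A hA hσ, hdp hp hpM, map_mul,
          map_natCast, hχD, RingHom.id_apply])
    (by
      intro p hp hpS A hA τ hτ
      obtain ⟨hpM, hpℓ⟩ := (hS p hp).mp hpS
      refine ⟨?_, detK_of_mem_inertia ℓ M aD (RingHom.id k) hp hpM hpℓ A hA hτ⟩
      rw [hρW, unramified p hp hpM hpℓ A hA τ hτ, map_one])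
  refine ⟨r, fun p hp hpM hpℓ => ?_⟩
  have hpS : p ∉ S := (hS p hp).mpr ⟨hpM, hpℓ⟩
  obtain ⟨h1, h2'⟩ := hr p hp hpS
  refine ⟨h1, fun A hA σ hσ => ?_⟩
  rw [h2' A hA σ hσ, htp hp hpM, hdp hp hpM, hχT hp hpM, map_mul, map_natCast, hχD]

/-- **GEO back end, generator + eigenvector form, lattice version**: the eigenvector lives in
`k ⊗_ℤ Lam` for a lattice `Lam` with `ℤ_[ℓ] ⊗ Lam ≅ TJ` (comparison `ι₀`) and operators `lT`, `lD` on
`Lam` intertwined with `bT`, `bD` by `ι₀`. -/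
theorem exists_residualRep_of_tate_gen_lattice (hℓ2 : ℓ ≠ 2)
    (ρ : GQ →* Module.End ℤ_[ℓ] TJ)
    (bT : ∀ {p : ℕ}, p.Prime → ¬ p ∣ M → Module.End ℤ_[ℓ] TJ)
    (bD : (ZMod M)ˣ → Module.End ℤ_[ℓ] TJ)
    (commute_T : ∀ (g : GQ) {p : ℕ} (hp : p.Prime) (hpM : ¬ p ∣ M), Commute (ρ g) (bT hp hpM))
    (commute_D : ∀ (g : GQ) (d : (ZMod M)ˣ), Commute (ρ g) (bD d))
    (finiteLevel : ∃ L : IntermediateField ℚ Qb, FiniteDimensional ℚ L ∧
      ∀ σ : GQ, (∀ a ∈ L, σ a = a) → ∀ x : TJ, ∃ y : TJ, ρ σ x - x = (ℓ : ℤ_[ℓ]) • y)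
    (unramified : ∀ q : ℕ, q.Prime → ¬ q ∣ M → q ≠ ℓ →
      ∀ A : ValuationSubring Qb, A.LiesOverPrime q → ∀ τ ∈ A.inertiaSubgroupIn ℚ, ρ τ = 1)
    (frobenius : ∀ {p : ℕ} (hp : p.Prime) (hpM : ¬ p ∣ M), p ≠ ℓ →
      ∀ A : ValuationSubring Qb, A.LiesOverPrime p → ∀ σ : GQ, A.IsFrobeniusAt σ p →
        ρ σ * ρ σ - bT hp hpM * ρ σ + (p : ℤ_[ℓ]) • bD (unitP hp hpM) = 0)
    {Lam : Type*} [AddCommGroup Lam] (ι₀ : Lam →ₗ[ℤ] TJ) (hι₀ : IsBaseChange ℤ_[ℓ] ι₀)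
    (lT : ∀ {p : ℕ}, p.Prime → ¬ p ∣ M → Module.End ℤ Lam) (lD : (ZMod M)ˣ → Module.End ℤ Lam)
    (bT_ι₀ : ∀ {p : ℕ} (hp : p.Prime) (hpM : ¬ p ∣ M) (x : Lam),
      bT hp hpM (ι₀ x) = ι₀ (lT hp hpM x))
    (bD_ι₀ : ∀ (d : (ZMod M)ˣ) (x : Lam), bD d (ι₀ x) = ι₀ (lD d x))
    (aT : ∀ {p : ℕ}, p.Prime → ¬ p ∣ M → k) (aD : (ZMod M)ˣ →* k) (haD : aD (-1) = 1)
    (heig : ∃ w : k ⊗[ℤ] Lam, w ≠ 0 ∧
      (∀ {p : ℕ} (hp : p.Prime) (hpM : ¬ p ∣ M), (lT hp hpM).baseChange k w = aT hp hpM • w) ∧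
      (∀ d : (ZMod M)ˣ, (lD d).baseChange k w = aD d • w)) :
    ∃ r : ResidualGaloisRep k, ∀ (p : ℕ) (hp : p.Prime) (hpM : ¬ p ∣ M), p ≠ ℓ →
      r.IsUnramifiedAt p ∧
      ∀ A : ValuationSubring Qb, A.LiesOverPrime p → ∀ σ : GQ, A.IsFrobeniusAt σ p →
        LinearMap.charpoly (r.ρ σ) =
          X ^ 2 - C (aT hp hpM) * X + C ((p : k) * aD (unitP hp hpM)) := by
  obtain ⟨E, hE⟩ := exists_equiv_of_isBaseChange (k := k) ι₀ hι₀
  obtain ⟨w, hw0, hwT, hwD⟩ := heig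
  refine exists_residualRep_of_tate_gen hℓ2 ρ bT bD commute_T commute_D finiteLevel unramified
    frobenius aT aD haD ⟨E w, fun h => hw0 (E.map_eq_zero_iff.mp h), ?_, ?_⟩
  · intro p hp hpM
    rw [hE (lT hp hpM) (bT hp hpM) (bT_ι₀ hp hpM), hwT hp hpM, map_smul]
  · intro d
    rw [hE (lD d) (bD d) (bD_ι₀ d), hwD d, map_smul]

end Main

end Fermat.Agent.DS.Geo.GeoMainGen
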