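/-
DS programme (S48), GEO half (helper93): the geometric inputs in GENERATOR + EIGENVECTOR form and
the assembly `GeoInputsGen M ℓ ⟹ Contract.HeckeModLReps`.

`GeoInputsGen M ℓ` is `DS/G/Top/Inputs.GeoInputs M ℓ` WITHOUT the commutative ring `R` acting
faithfully on the lattice (not available: commutativity of the double coset operators on
`Hom_par(Γ₁(M), ℤ)` would need the Eichler--Shimura surjectivity), and WITH the field `eigen`
(= `Per1/EigenTensor1.exists_eigen_tensor_Gamma1`): every `θ : T2 M →+* k` occurs on `k ⊗_ℤ Lam`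
for the lattice operators `lT`, `lD`.
-/
import Mathlib
import Fermat.Agent.DS.G.Top.Contract
import Fermat.Agent.DS.Geo.GeoMainGen
import Fermat.Agent.DS.Geo.ContractOfTate
import Fermat.Agent.ES.J.TateModule13

set_option autoImplicit false
set_option linter.unusedSectionVars false

open Polynomial TensorProduct

noncomputable section

namespace Fermat.Agent.DS.Geo.InputsGen

open Fermat.Agent.DS.Hecke1.Algebra Fermat.Agent.DS.Hecke1.HeckeT1
open Fermat.Agent.DS.G.Top.Contract Fermat.Agent.DS.Geo.ContractOfTate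
open Fermat.Agent.DS.Geo.GeoMainGen Fermat.Agent.DS.Geo.GeoMain
open Fermat.Agent.ES.J.TateModule13
open Fermat.Agent.ES.J

local notation "Qb" => AlgebraicClosure ℚ
local notation "GQ" => (AlgebraicClosure ℚ ≃ₐ[ℚ] AlgebraicClosure ℚ)

/-- **The geometric inputs** at level `Γ₁(M)` and prime `ℓ`, generator + eigenvector form. -/
structure GeoInputsGen (M : ℕ) [NeZero M] (ℓ : ℕ) [Fact ℓ.Prime] : Type 1 where
  /-- the lattice `Hom_par(Γ₁(M), ℤ)` -/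
  Lam : Type
  [instLamGroup : AddCommGroup Lam]
  /-- `T_p` on the lattice -/
  lT : ∀ {p : ℕ}, p.Prime → ¬ p ∣ M → Module.End ℤ Lam
  /-- `⟨d⟩` on the lattice -/
  lD : (ZMod M)ˣ → Module.End ℤ Lam
  /-- every system of eigenvalues of `T2 M` occurs on `k ⊗ Lam` -/
  eigen : ∀ (k : Type) [Field k] [CharP k ℓ] (θ : T2 M →+* k), ∃ w : k ⊗[ℤ] Lam, w ≠ 0 ∧
    (∀ {p : ℕ} (hp : p.Prime) (hpM : ¬ p ∣ M),
      (lT hp hpM).baseChange k w = θ (heckeAlgebra1.T hp hpM) • w) ∧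
    (∀ d : (ZMod M)ˣ, (lD d).baseChange k w = θ (heckeAlgebra1.dia d) • w)
  /-- the Tate module -/
  TJ : Type
  [instTJGroup : AddCommGroup TJ]
  [instTJModule : Module ℤ_[ℓ] TJ]
  [instTJFinite : Module.Finite ℤ_[ℓ] TJ]
  /-- the comparison map -/
  ι₀ : Lam →ₗ[ℤ] TJ
  isBaseChange : IsBaseChange ℤ_[ℓ] ι₀
  /-- `T_p` on the Tate module -/
  bT : ∀ {p : ℕ}, p.Prime → ¬ p ∣ M → Module.End ℤ_[ℓ] TJ
  /-- `⟨d⟩` on the Tate module -/
  bD : (ZMod M)ˣ → Module.End ℤ_[ℓ] TJ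
  bT_ι₀ : ∀ {p : ℕ} (hp : p.Prime) (hpM : ¬ p ∣ M) (x : Lam),
    bT hp hpM (ι₀ x) = ι₀ (lT hp hpM x)
  bD_ι₀ : ∀ (d : (ZMod M)ˣ) (x : Lam), bD d (ι₀ x) = ι₀ (lD d x)
  /-- the Galois action -/
  ρ : GQ →* Module.End ℤ_[ℓ] TJ
  commute_T : ∀ (g : GQ) {p : ℕ} (hp : p.Prime) (hpM : ¬ p ∣ M), Commute (ρ g) (bT hp hpM)
  commute_D : ∀ (g : GQ) (d : (ZMod M)ˣ), Commute (ρ g) (bD d)
  finiteLevel : ∃ L : IntermediateField ℚ Qb, FiniteDimensional ℚ L ∧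
    ∀ σ : GQ, (∀ a ∈ L, σ a = a) → ∀ x : TJ, ∃ y : TJ, ρ σ x - x = (ℓ : ℤ_[ℓ]) • y
  unramified : ∀ q : ℕ, q.Prime → ¬ q ∣ M → q ≠ ℓ →
    ∀ A : ValuationSubring Qb, A.LiesOverPrime q → ∀ τ ∈ A.inertiaSubgroupIn ℚ, ρ τ = 1
  frobenius : ∀ {p : ℕ} (hp : p.Prime) (hpM : ¬ p ∣ M), p ≠ ℓ →
    ∀ A : ValuationSubring Qb, A.LiesOverPrime p → ∀ σ : GQ, A.IsFrobeniusAt σ p →
      ρ σ * ρ σ - bT hp hpM * ρ σ + (p : ℤ_[ℓ]) • bD (unitP hp hpM) = 0

attribute [instance] GeoInputsGen.instLamGroup GeoInputsGen.instTJGroup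
  GeoInputsGen.instTJModule GeoInputsGen.instTJFinite

section Assemble

variable {M : ℕ} [NeZero M] {ℓ : ℕ} [hℓ : Fact ℓ.Prime]

/-- the representation attached to `θ`. -/
theorem exists_rep_of_geoInputsGen (D : GeoInputsGen M ℓ) (hℓ2 : ℓ ≠ 2)
    (k : Type) [Field k] [CharP k ℓ] (θ : T2 M →+* k) :
    ∃ ρ : ResidualGaloisRep k, ∀ (p : ℕ) (hp : p.Prime) (hpM : ¬ p ∣ M), p ≠ ℓ →
      ρ.IsUnramifiedAt p ∧
      ∀ A : ValuationSubring Qb, A.LiesOverPrime p → ∀ σ : GQ, A.IsFrobeniusAt σ p →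
        LinearMap.charpoly (ρ.ρ σ) =
          X ^ 2 - C (θ (heckeAlgebra1.T hp hpM)) * X +
            C ((p : k) * θ (heckeAlgebra1.dia (unitP hp hpM))) := by
  let _ : Algebra ℤ_[ℓ] k := charAlgebra ℓ k
  have haD : ((θ : T2 M →* k).comp (diaHom M 2)) (-1) = 1 := by
    rw [MonoidHom.comp_apply, diaHom_neg_one M even_two]
    exact map_one θ
  exact exists_residualRep_of_tate_gen_lattice (M := M) hℓ2 D.ρ D.bT D.bD D.commute_T D.commute_D
    D.finiteLevel D.unramified D.frobenius D.ι₀ D.isBaseChange D.lT D.lD D.bT_ι₀ D.bD_ι₀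
    (fun hp hpM => θ (heckeAlgebra1.T hp hpM)) ((θ : T2 M →* k).comp (diaHom M 2)) haD
    (D.eigen k θ)

/-- **the contract from the geometric inputs (generator + eigenvector form) at every level
divisible by `c'`.** -/
theorem heckeModLReps_of_geoInputsGen (c' : ℕ)
    (h : ∀ (M : ℕ) [NeZero M], c' ∣ M → ∀ (ℓ : ℕ) [Fact ℓ.Prime], ℓ ≠ 2 →
      Nonempty (GeoInputsGen M ℓ)) :
    HeckeModLReps c' := by
  intro M _ hcM ℓ hℓ hℓ2 k _ _ θ
  have : Fact ℓ.Prime := ⟨hℓ⟩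
  obtain ⟨D⟩ := h M hcM ℓ hℓ2
  exact exists_rep_of_geoInputsGen D hℓ2 k θ

end Assemble

/-! ### constructor from torsion-level geometry on an abstract `J` -/

section OfTorsion

variable {M : ℕ} [NeZero M] {ℓ : ℕ} [hℓ : Fact ℓ.Prime]
variable {J : Type} [AddCommGroup J] [DistribMulAction GQ J]

/-- **Constructor of `GeoInputsGen M ℓ`** from the lattice side (`Lam`, `lT`, `lD`, `eigen`), the
comparison `ι₀ : Lam → T_ℓ J` and torsion-level geometry on an abstract `J`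
(`Tp`, `Dia`; Galois equivariance; finiteness of `J[ℓ]`; level, inertia, Frobenius relation). -/
def geoInputsGenOfTorsion
    (Tp : ∀ {p : ℕ}, p.Prime → ¬ p ∣ M → (J →+ J)) (Dia : (ZMod M)ˣ → (J →+ J))
    (Lam : Type) [AddCommGroup Lam]
    (lT : ∀ {p : ℕ}, p.Prime → ¬ p ∣ M → Module.End ℤ Lam) (lD : (ZMod M)ˣ → Module.End ℤ Lam)
    (eigen : ∀ (k : Type) [Field k] [CharP k ℓ] (θ : T2 M →+* k), ∃ w : k ⊗[ℤ] Lam, w ≠ 0 ∧
      (∀ {p : ℕ} (hp : p.Prime) (hpM : ¬ p ∣ M),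
        (lT hp hpM).baseChange k w = θ (heckeAlgebra1.T hp hpM) • w) ∧
      (∀ d : (ZMod M)ˣ, (lD d).baseChange k w = θ (heckeAlgebra1.dia d) • w))
    (ι₀ : Lam →ₗ[ℤ] TateModule ℓ J) (isBaseChange : IsBaseChange ℤ_[ℓ] ι₀)
    (hι₀T : ∀ {p : ℕ} (hp : p.Prime) (hpM : ¬ p ∣ M) (x : Lam),
      TateModule13.map (Tp hp hpM) (ι₀ x) = ι₀ (lT hp hpM x))
    (hι₀D : ∀ (d : (ZMod M)ˣ) (x : Lam), TateModule13.map (Dia d) (ι₀ x) = ι₀ (lD d x))
    (hTpG : ∀ {p : ℕ} (hp : p.Prime) (hpM : ¬ p ∣ M) (σ : GQ) (x : J),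
      Tp hp hpM (σ • x) = σ • Tp hp hpM x)
    (hDiaG : ∀ (d : (ZMod M)ˣ) (σ : GQ) (x : J), Dia d (σ • x) = σ • Dia d x)
    (hfin : {y : J | ℓ • y = 0}.Finite)
    (hlevel : ∃ L : IntermediateField ℚ Qb, FiniteDimensional ℚ L ∧
      ∀ σ : GQ, (∀ a ∈ L, σ a = a) → ∀ y : J, ℓ • y = 0 → σ • y = y)
    (hinertia : ∀ q : ℕ, q.Prime → ¬ q ∣ M → q ≠ ℓ → ∀ A : ValuationSubring Qb,
      A.LiesOverPrime q → ∀ τ ∈ A.inertiaSubgroupIn ℚ, ∀ (n : ℕ) (y : J), ℓ ^ n • y = 0 →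
        τ • y = y)
    (hfrob : ∀ {p : ℕ} (hp : p.Prime) (hpM : ¬ p ∣ M), p ≠ ℓ → ∀ A : ValuationSubring Qb,
      A.LiesOverPrime p → ∀ σ : GQ, A.IsFrobeniusAt σ p → ∀ (n : ℕ) (y : J), ℓ ^ n • y = 0 →
        σ • σ • y - Tp hp hpM (σ • y) + p • Dia (unitP hp hpM) y = 0) :
    GeoInputsGen M ℓ :=
  haveI : Finite {y : J // ℓ • y = 0} := hfin.to_subtype
  haveI : Module.Finite ℤ_[ℓ] (TateModule ℓ J) := module_finite
  { Lam := Lam
    lT := lT
    lD := lD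
    eigen := eigen
    TJ := TateModule ℓ J
    ι₀ := ι₀
    isBaseChange := isBaseChange
    bT := fun hp hpM => TateModule13.map (Tp hp hpM)
    bD := fun d => TateModule13.map (Dia d)
    bT_ι₀ := hι₀T
    bD_ι₀ := hι₀D
    ρ := rho ℓ J
    commute_T := fun g _ hp hpM => by
      show rho ℓ J g * TateModule13.map (Tp hp hpM) = TateModule13.map (Tp hp hpM) * rho ℓ J g
      ext x k
      exact (hTpG hp hpM g _).symm
    commute_D := fun g d => by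
      show rho ℓ J g * TateModule13.map (Dia d) = TateModule13.map (Dia d) * rho ℓ J g
      ext x k
      exact (hDiaG d g _).symm
    finiteLevel := by
      obtain ⟨L, hL, h⟩ := hlevel
      refine ⟨L, hL, fun σ hσ x => ?_⟩
      have := rho_sub_mem (p := ℓ) σ 1 (fun y hy => h σ hσ y (by rwa [pow_one] at hy)) x
      rwa [pow_one] at this
    unramified := fun q hq hqM hqℓ A hA τ hτ =>
      rho_eq_one τ (hinertia q hq hqM hqℓ A hA τ hτ)
    frobenius := fun {p} hp hpM hpℓ A hA σ hσ => by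
      refine LinearMap.ext fun x => ?_
      ext k
      show σ • σ • proj k x - Tp hp hpM (σ • proj k x) +
        proj k ((p : ℤ_[ℓ]) • TateModule13.map (Dia (unitP hp hpM)) x) = 0
      rw [proj_natCast_smul]
      exact hfrob hp hpM hpℓ A hA σ hσ k (proj k x) (pow_smul_proj k x) }

end OfTorsion

end Fermat.Agent.DS.Geo.InputsGen
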