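/-
DS programme (S48), GEO half (helper93): `ContractOfTate.TateData M ℓ` FROM TORSION-LEVEL GEOMETRY.

Input (shape = the exports of the Gamma0 files `ES/TOP/TorsionGalois12`, `ES/GAL/OpenStab12`,
`ES/J/K2Final11`, for an ABSTRACT abelian group `J` with `G_ℚ`-action):
* additive endomorphisms `Tp p`, `Dia d` of `J` commuting with `G_ℚ`;
* `hlevel`: `J[m]` is fixed by an open subgroup; `hfin`: `J[ℓ]` is finite;
* `hinertia`: inertia at `p ∤ M ℓ` fixes the `ℓ`-power torsion;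
* `hfrob`: `σ σ x - T_p (σ x) + p ⟨p⟩ x = 0` on `ℓ`-power torsion, `σ` a Frobenius lift at `p ∤ M ℓ`;
* a faithful action `T` of the Hecke algebra `T2 M` on a finitely generated `ℤ`-module `Λ` and a
  comparison `ι₀ : Λ → T_ℓ J`, base change `ℤ → ℤ_ℓ`, intertwining the GENERATORS `T_p`, `⟨d⟩`.
Output: `TateData M ℓ`; the `T2 M`-action on the Tate module is DEFINED by transport along `ι₀`
(`extendEnd`), so no relation between the geometric operators has to be checked.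
-/
import Mathlib
import Fermat.Agent.ES.J.TateModule13
import Fermat.Agent.DS.Geo.ContractOfTate

set_option autoImplicit false
set_option linter.unusedSectionVars false

open scoped TensorProduct

noncomputable section

namespace Fermat.Agent.DS.Geo.TateOfTorsion

open Fermat.Agent.ES.J.TateModule13
open Fermat.Agent.DS.Hecke1.Algebra Fermat.Agent.DS.Hecke1.HeckeT1 Fermat.Agent.DS.Hecke1.Diamond
open Fermat.Agent.DS.Geo.ContractOfTate

local notation "Qb" => AlgebraicClosure ℚ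
local notation "GQ" => (AlgebraicClosure ℚ ≃ₐ[ℚ] AlgebraicClosure ℚ)

/-! ### transport of endomorphisms along a base change -/

section Transport

variable {A : Type*} [CommRing A] {Λ : Type*} [AddCommGroup Λ] {N : Type*} [AddCommGroup N]
  [Module A N] {ι₀ : Λ →ₗ[ℤ] N} (hι₀ : IsBaseChange A ι₀)

/-- the `A`-linear extension of a `ℤ`-linear endomorphism of `Λ` to the base change `N`. -/
def extendEnd : Module.End ℤ Λ →+* Module.End A N where
  toFun f := hι₀.lift (ι₀ ∘ₗ f)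
  map_one' := hι₀.algHom_ext _ _ fun x => by
    rw [IsBaseChange.lift_eq]
    rfl
  map_mul' f g := hι₀.algHom_ext _ _ fun x => by
    rw [IsBaseChange.lift_eq, Module.End.mul_apply, IsBaseChange.lift_eq]
    change ι₀ (f (g x)) = hι₀.lift (ι₀ ∘ₗ f) (ι₀ (g x))
    rw [IsBaseChange.lift_eq]
    rfl
  map_zero' := hι₀.algHom_ext _ _ fun x => by
    rw [IsBaseChange.lift_eq]
    simp
  map_add' f g := hι₀.algHom_ext _ _ fun x => by
    rw [IsBaseChange.lift_eq, LinearMap.add_apply, IsBaseChange.lift_eq, IsBaseChange.lift_eq]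
    simp

theorem extendEnd_apply (f : Module.End ℤ Λ) (x : Λ) : extendEnd hι₀ f (ι₀ x) = ι₀ (f x) :=
  hι₀.lift_eq _ x

theorem eq_extendEnd (f : Module.End ℤ Λ) (g : Module.End A N) (h : ∀ x, g (ι₀ x) = ι₀ (f x)) :
    g = extendEnd hι₀ f :=
  hι₀.algHom_ext _ _ fun x => by rw [h, extendEnd_apply]

end Transport

/-! ### Tate-module data from torsion-level geometry -/

section Geometry

variable {M : ℕ} [NeZero M] {ℓ : ℕ} [hℓ : Fact ℓ.Prime]
variable {J : Type} [AddCommGroup J] [DistribMulAction GQ J]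

/-- the Galois action commutes with the map induced by an equivariant endomorphism. -/
theorem commute_rho_map (f : J →+ J) (hf : ∀ (σ : GQ) (x : J), f (σ • x) = σ • f x) (g : GQ) :
    Commute (rho ℓ J g) (map f : Module.End ℤ_[ℓ] (TateModule ℓ J)) := by
  show rho ℓ J g * map f = map f * rho ℓ J g
  ext x k
  exact (hf g _).symm

variable {Λ : Type*} [AddCommGroup Λ] (T : T2 M →+* Module.End ℤ Λ)
  {ι₀ : Λ →ₗ[ℤ] TateModule ℓ J} (hι₀ : IsBaseChange ℤ_[ℓ] ι₀)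

/-- the action of the Hecke algebra on the Tate module, by transport along `ι₀`. -/
def tOf : T2 M →+* Module.End ℤ_[ℓ] (TateModule ℓ J) := (extendEnd hι₀).comp T

omit [DistribMulAction GQ J] in
theorem tOf_apply (h : T2 M) (x : Λ) : tOf T hι₀ h (ι₀ x) = ι₀ (T h x) :=
  extendEnd_apply hι₀ (T h) x

omit [DistribMulAction GQ J] in
theorem tOf_eq (h : T2 M) (g : Module.End ℤ_[ℓ] (TateModule ℓ J))
    (hg : ∀ x, g (ι₀ x) = ι₀ (T h x)) : tOf T hι₀ h = g :=
  (eq_extendEnd hι₀ (T h) g hg).symm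

variable (Tp : ∀ p : ℕ, p.Prime → ¬ p ∣ M → (J →+ J)) (Dia : (ZMod M)ˣ → (J →+ J))
  (hTpG : ∀ (p : ℕ) (hp : p.Prime) (hpM : ¬ p ∣ M) (σ : GQ) (x : J),
    Tp p hp hpM (σ • x) = σ • Tp p hp hpM x)
  (hDiaG : ∀ (d : (ZMod M)ˣ) (σ : GQ) (x : J), Dia d (σ • x) = σ • Dia d x)
  (hι₀Tp : ∀ (p : ℕ) (hp : p.Prime) (hpM : ¬ p ∣ M) (x : Λ),
    map (Tp p hp hpM) (ι₀ x) = ι₀ (T (heckeAlgebra1.T hp hpM) x))
  (hι₀Dia : ∀ (d : (ZMod M)ˣ) (x : Λ), map (Dia d) (ι₀ x) = ι₀ (T (heckeAlgebra1.dia d) x))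

include hι₀Tp in
theorem tOf_T {p : ℕ} (hp : p.Prime) (hpM : ¬ p ∣ M) :
    tOf T hι₀ (heckeAlgebra1.T hp hpM) = map (Tp p hp hpM) :=
  tOf_eq T hι₀ _ _ (hι₀Tp p hp hpM)

include hι₀Dia in
theorem tOf_dia (d : (ZMod M)ˣ) : tOf T hι₀ (heckeAlgebra1.dia d) = map (Dia d) :=
  tOf_eq T hι₀ _ _ (hι₀Dia d)

include hTpG hDiaG hι₀Tp hι₀Dia in
/-- the transported Hecke action commutes with the Galois action. -/
theorem commute_rho_tOf (g : GQ) (h : T2 M) : Commute (rho ℓ J g) (tOf T hι₀ h) := by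
  obtain ⟨h, hh⟩ := h
  refine Algebra.adjoin_induction (R := ℤ) (s := heckeGenerators1 M 2)
    (p := fun x hx => Commute (rho ℓ J g) (tOf T hι₀ ⟨x, hx⟩)) ?_ ?_ ?_ ?_ hh
  · rintro x (⟨p, hp, hpM, rfl⟩ | ⟨d, rfl⟩)
    · have : (⟨heckeT1 hp hpM, Algebra.subset_adjoin (Or.inl ⟨p, hp, hpM, rfl⟩)⟩ : T2 M) =
          heckeAlgebra1.T hp hpM := rfl
      rw [this, tOf_T T hι₀ Tp hι₀Tp hp hpM]
      exact commute_rho_map _ (hTpG p hp hpM) g
    · have : (⟨diamond d, Algebra.subset_adjoin (Or.inr ⟨d, rfl⟩)⟩ : T2 M) =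
          heckeAlgebra1.dia d := rfl
      rw [this, tOf_dia T hι₀ Dia hι₀Dia d]
      exact commute_rho_map _ (hDiaG d) g
  · intro r
    have : (⟨algebraMap ℤ _ r, Subalgebra.algebraMap_mem _ r⟩ : T2 M) = algebraMap ℤ (T2 M) r :=
      rfl
    rw [this, eq_intCast, map_intCast]
    exact (Int.cast_commute r (rho ℓ J g)).symm
  · intro x y hx hy hcx hcy
    have : (⟨x + y, Subalgebra.add_mem _ hx hy⟩ : T2 M) = ⟨x, hx⟩ + ⟨y, hy⟩ := rfl
    rw [this, map_add]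
    exact hcx.add_right hcy
  · intro x y hx hy hcx hcy
    have : (⟨x * y, Subalgebra.mul_mem _ hx hy⟩ : T2 M) = ⟨x, hx⟩ * ⟨y, hy⟩ := rfl
    rw [this, map_mul]
    exact hcx.mul_right hcy

/-- **`TateData M ℓ` from torsion-level geometry.** -/
def tateDataOfTorsion [Module.Finite ℤ Λ] (hT : Function.Injective T)
    (hfin : {y : J | ℓ • y = 0}.Finite)
    (hlevel : ∃ L : IntermediateField ℚ Qb, FiniteDimensional ℚ L ∧
      ∀ σ : GQ, (∀ a ∈ L, σ a = a) → ∀ y : J, ℓ • y = 0 → σ • y = y)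
    (hinertia : ∀ p : ℕ, p.Prime → ¬ p ∣ M → p ≠ ℓ → ∀ A : ValuationSubring Qb,
      A.LiesOverPrime p → ∀ τ ∈ A.inertiaSubgroupIn ℚ, ∀ (n : ℕ) (y : J), ℓ ^ n • y = 0 →
        τ • y = y)
    (hfrob : ∀ (p : ℕ) (hp : p.Prime) (hpM : ¬ p ∣ M), p ≠ ℓ → ∀ A : ValuationSubring Qb,
      A.LiesOverPrime p → ∀ σ : GQ, A.IsFrobeniusAt σ p → ∀ (n : ℕ) (y : J), ℓ ^ n • y = 0 →
        σ • σ • y - Tp p hp hpM (σ • y) + p • Dia (unitP hp hpM) y = 0) :
    TateData M ℓ :=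
  haveI : Finite {y : J // ℓ • y = 0} := hfin.to_subtype
  haveI : Module.Finite ℤ_[ℓ] (TateModule ℓ J) := module_finite
  TateData.ofLattice (TateModule ℓ J) (rho ℓ J) (tOf T hι₀)
    (commute_rho_tOf T hι₀ Tp Dia hTpG hDiaG hι₀Tp hι₀Dia)
    (by
      obtain ⟨L, hL, h⟩ := hlevel
      refine ⟨L, hL, fun σ hσ x => ?_⟩
      have := rho_sub_mem (p := ℓ) σ 1 (fun y hy => h σ hσ y (by rwa [pow_one] at hy)) x
      rwa [pow_one] at this)
    (fun p hp hpM hpℓ A hA τ hτ => rho_eq_one τ (hinertia p hp hpM hpℓ A hA τ hτ))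
    (by
      intro p hp hpM hpℓ A hA σ hσ
      rw [tOf_T T hι₀ Tp hι₀Tp hp hpM, tOf_dia T hι₀ Dia hι₀Dia]
      refine LinearMap.ext fun x => ?_
      ext k
      show σ • σ • proj k x - Tp p hp hpM (σ • proj k x) +
        proj k ((p : ℤ_[ℓ]) • map (Dia (unitP hp hpM)) x) = 0
      rw [proj_natCast_smul]
      exact hfrob p hp hpM hpℓ A hA σ hσ k (proj k x) (pow_smul_proj k x))
    T hT ι₀ hι₀ (tOf_apply T hι₀)

end Geometry

end Fermat.Agent.DS.Geo.TateOfTorsion
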